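/-
S55 / [LOC-H] (helper95), file 2: two elementary facts on functions on a finite cyclic group
(= vanishing of the Tate cohomology of an induced module `B[G]`, in coordinates).

`G` finite group generated by `σ₀`, `B` an additive commutative group, `a : G → B`.
* `const_of_shift` : `a (σ₀⁻¹ τ) = a τ` for all `τ`  ⟹  `a` is constant;
* `exists_shift_sub` : `∑ τ, a τ = 0`  ⟹  `a τ = b (σ₀⁻¹ τ) - b τ` for some `b`.
Mathlib only.
-/
import Mathlib

set_option autoImplicit false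

open Finset

namespace Fermat.Agent.S55.LocH95

noncomputable section CyclicSum

variable {G : Type*} [Group G] [Fintype G] (σ₀ : G) (hσ : ∀ τ : G, τ ∈ Subgroup.zpowers σ₀)
  {B : Type*} [AddCommGroup B]

omit [Fintype G] in
include hσ in
theorem const_of_shift (a : G → B) (h : ∀ τ, a (σ₀⁻¹ * τ) = a τ) (τ : G) : a τ = a 1 := by
  have key : ∀ k : ℤ, a (σ₀ ^ k) = a 1 := by
    intro k
    induction k using Int.induction_on with
    | zero => simp
    | succ k ih =>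
      have := h (σ₀ ^ ((k : ℤ) + 1))
      rw [← this, ← ih]
      congr 1
      rw [zpow_add_one, (Commute.refl σ₀).zpow_left (k : ℤ) |>.eq, inv_mul_cancel_left]
    | pred k ih =>
      have := h (σ₀ ^ (-(k : ℤ)))
      rw [← ih, ← this]
      congr 1
      rw [zpow_sub_one, (Commute.refl σ₀).inv_right.zpow_left (-(k : ℤ)) |>.eq]
  obtain ⟨k, rfl⟩ := Subgroup.mem_zpowers_iff.1 (hσ τ)
  exact key k

/-- the powers of the generator, indexed by `Fin (orderOf σ₀)` -/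
def pw (k : Fin (orderOf σ₀)) : G := σ₀ ^ (k : ℕ)

include hσ in
theorem pw_bijective : Function.Bijective (pw σ₀) := by
  have hfin : IsOfFinOrder σ₀ := isOfFinOrder_of_finite σ₀
  constructor
  · intro i j hij
    have := pow_injOn_Iio_orderOf (x := σ₀) (by simp) (by simp) hij
    exact Fin.ext this
  · intro τ
    obtain ⟨k, rfl⟩ := Subgroup.mem_zpowers_iff.1 (hσ τ)
    have hpos : 0 < orderOf σ₀ := hfin.orderOf_pos
    refine ⟨⟨(k % (orderOf σ₀ : ℤ)).toNat, ?_⟩, ?_⟩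
    · have h1 : 0 ≤ k % (orderOf σ₀ : ℤ) := Int.emod_nonneg _ (by exact_mod_cast hpos.ne')
      have h2 : k % (orderOf σ₀ : ℤ) < orderOf σ₀ := Int.emod_lt_of_pos _ (by exact_mod_cast hpos)
      omega
    · show σ₀ ^ ((k % (orderOf σ₀ : ℤ)).toNat) = σ₀ ^ k
      have h1 : 0 ≤ k % (orderOf σ₀ : ℤ) := Int.emod_nonneg _ (by exact_mod_cast hpos.ne')
      rw [← zpow_natCast, Int.toNat_of_nonneg h1, zpow_mod_orderOf]

/-- the index equivalence -/
def pwEquiv : Fin (orderOf σ₀) ≃ G := Equiv.ofBijective (pw σ₀) (pw_bijective σ₀ hσ)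

theorem pwEquiv_apply (k : Fin (orderOf σ₀)) : pwEquiv σ₀ hσ k = σ₀ ^ (k : ℕ) := rfl

/-- the exponent of `τ` -/
def idx (τ : G) : ℕ := ((pwEquiv σ₀ hσ).symm τ : ℕ)

theorem idx_lt (τ : G) : idx σ₀ hσ τ < orderOf σ₀ := ((pwEquiv σ₀ hσ).symm τ).2

theorem pow_idx (τ : G) : σ₀ ^ idx σ₀ hσ τ = τ := by
  have := (pwEquiv σ₀ hσ).apply_symm_apply τ
  rwa [pwEquiv_apply] at this

theorem idx_pow {j : ℕ} (hj : j < orderOf σ₀) : idx σ₀ hσ (σ₀ ^ j) = j := by
  have h : (pwEquiv σ₀ hσ).symm (σ₀ ^ j) = ⟨j, hj⟩ := by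
    rw [Equiv.symm_apply_eq]
    rfl
  unfold idx
  rw [h]

include hσ in
theorem sum_eq_sum_range (a : G → B) :
    ∑ τ, a τ = ∑ j ∈ range (orderOf σ₀), a (σ₀ ^ j) := by
  rw [← Fin.sum_univ_eq_sum_range (fun j => a (σ₀ ^ j)) (orderOf σ₀)]
  exact (Fintype.sum_equiv (pwEquiv σ₀ hσ) _ _ (fun k => rfl)).symm

include hσ in
theorem exists_shift_sub (a : G → B) (h : ∑ τ, a τ = 0) :
    ∃ b : G → B, ∀ τ, b (σ₀⁻¹ * τ) - b τ = a τ := by
  classical
  have hfin : IsOfFinOrder σ₀ := isOfFinOrder_of_finite σ₀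
  have hpos : 0 < orderOf σ₀ := hfin.orderOf_pos
  refine ⟨fun τ => -∑ j ∈ Finset.Icc 1 (idx σ₀ hσ τ), a (σ₀ ^ j), fun τ => ?_⟩
  have hτ := pow_idx σ₀ hσ τ
  have hk := idx_lt σ₀ hσ τ
  generalize hkdef : idx σ₀ hσ τ = k at hτ hk
  rcases Nat.eq_zero_or_pos k with hk0 | hkpos
  · -- `τ = 1`
    have hτ1 : τ = 1 := by rw [← hτ, hk0, pow_zero]
    have h1 : σ₀⁻¹ * τ = σ₀ ^ (orderOf σ₀ - 1) := by
      rw [hτ1, mul_one, eq_comm, ← mul_eq_one_iff_eq_inv, ← pow_succ, Nat.sub_add_cancel hpos,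
        pow_orderOf_eq_one]
    have h2 : idx σ₀ hσ (σ₀⁻¹ * τ) = orderOf σ₀ - 1 := by
      rw [h1]; exact idx_pow σ₀ hσ (by omega)
    simp only []
    rw [h2, hkdef, hk0]
    have h3 : ∑ j ∈ range (orderOf σ₀), a (σ₀ ^ j) = 0 := by
      rw [← sum_eq_sum_range σ₀ hσ]; exact h
    have h4 : ∑ j ∈ range (orderOf σ₀), a (σ₀ ^ j)
        = a 1 + ∑ j ∈ Finset.Icc 1 (orderOf σ₀ - 1), a (σ₀ ^ j) := by
      have : range (orderOf σ₀) = insert 0 (Finset.Icc 1 (orderOf σ₀ - 1)) := by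
        ext j
        simp only [mem_range, mem_insert, mem_Icc]
        omega
      rw [this, Finset.sum_insert (by simp), pow_zero]
    rw [h4] at h3
    have h5 : Finset.Icc 1 0 = (∅ : Finset ℕ) := by decide
    rw [h5, Finset.sum_empty, neg_zero, sub_zero, hτ1]
    exact neg_eq_of_add_eq_zero_left h3
  · have h1 : σ₀⁻¹ * τ = σ₀ ^ (k - 1) := by
      have : σ₀ ^ k = σ₀ * σ₀ ^ (k - 1) := by
        rw [← pow_succ', Nat.sub_add_cancel hkpos]
      rw [← hτ, this, inv_mul_cancel_left]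
    have h2 : idx σ₀ hσ (σ₀⁻¹ * τ) = k - 1 := by
      rw [h1]; exact idx_pow σ₀ hσ (by omega)
    simp only []
    rw [h2, hkdef]
    have h3 : Finset.Icc 1 k = insert k (Finset.Icc 1 (k - 1)) := by
      ext j
      simp only [mem_insert, mem_Icc]
      omega
    rw [h3, Finset.sum_insert (by simp; omega), hτ]
    abel

end CyclicSum

end Fermat.Agent.S55.LocH95
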