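/-
S55 / [LOC-H] + [LOC-UNR](a)  (helper95), file 1: SUCCESSIVE APPROXIMATION.

Abstract form of Serre, *Local Fields*, V §1 Lemma 2 / Cassels–Fröhlich VI §1.4 Lemma 2, for a pair
of endomorphisms `f g` of a commutative group `A` with `f ∘ g = 1` (e.g. `f = σ - 1`, `g = N` for a
cyclic group): if `A` is complete and separated for a filtration `V n` stable under `g`, and the
pair is exact on every graded piece, then it is exact on `V 0`.   Mathlib only.
-/
import Mathlib

set_option autoImplicit false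

open Finset

namespace Fermat.Agent.S55.LocH95

section Approx

variable {A : Type*} [CommGroup A] (f g : A →* A) (V : ℕ → Subgroup A)

/-- **Successive approximation.**  `x ∈ V 0`, `f x = 1`  ⟹  `x = g y` with `y ∈ V 0`, provided the
same holds modulo `V (n+1)` on every `V n`. -/
theorem exact_of_graded
    (hg : ∀ n, ∀ x ∈ V n, g x ∈ V n)
    (hfg : ∀ a, f (g a) = 1)
    (hsep : ∀ a, (∀ n, a ∈ V n) → a = 1)
    (hcomp : ∀ y : ℕ → A, (∀ n, y n ∈ V n) →
      ∃ z ∈ V 0, ∀ n, z / ∏ i ∈ range n, y i ∈ V n)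
    (hgr : ∀ n, ∀ x ∈ V n, f x = 1 → ∃ y ∈ V n, x / g y ∈ V (n + 1))
    {x : A} (hx : x ∈ V 0) (hfx : f x = 1) : ∃ y ∈ V 0, g y = x := by
  classical
  choose! Y hY1 hY2 using hgr
  -- the sequence of remainders
  let xs : ℕ → A := fun n => Nat.rec x (fun n xn => xn / g (Y n xn)) n
  have xs_zero : xs 0 = x := rfl
  have xs_succ : ∀ n, xs (n + 1) = xs n / g (Y n (xs n)) := fun n => rfl
  have hxs : ∀ n, xs n ∈ V n ∧ f (xs n) = 1 := by
    intro n
    induction n with
    | zero => exact ⟨hx, hfx⟩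
    | succ n ih =>
      refine ⟨?_, ?_⟩
      · rw [xs_succ]; exact hY2 n (xs n) ih.1 ih.2
      · rw [xs_succ, map_div, ih.2, hfg, div_one]
  let ys : ℕ → A := fun n => Y n (xs n)
  have hys : ∀ n, ys n ∈ V n := fun n => hY1 n (xs n) (hxs n).1 (hxs n).2
  obtain ⟨z, hz0, hz⟩ := hcomp ys hys
  refine ⟨z, hz0, ?_⟩
  -- partial products
  have hprod : ∀ n, g (∏ i ∈ range n, ys i) = x / xs n := by
    intro n
    induction n with
    | zero => simp [xs_zero]
    | succ n ih =>
      rw [Finset.prod_range_succ, map_mul, ih, xs_succ]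
      show x / xs n * g (Y n (xs n)) = x / (xs n / g (Y n (xs n)))
      rw [div_div_eq_mul_div, div_mul_eq_mul_div]
  have hmem : ∀ n, g z / x ∈ V n := by
    intro n
    have h1 : g z / x = g (z / ∏ i ∈ range n, ys i) / xs n := by
      rw [map_div, hprod, div_div, div_mul_cancel]
    rw [h1]
    exact (V n).div_mem (hg n _ (hz n)) (hxs n).1
  have := hsep _ hmem
  exact div_eq_one.mp this

end Approx

end Fermat.Agent.S55.LocH95
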