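/-
S55 / [LOC-H] (helper95), file 3: FILTERED RINGS.

`RingFilt L` : a decreasing, multiplicative (`M i * M j ⊆ M (i+j)`), separated and complete
filtration of a commutative ring `L` by additive subgroups.  Then `V i := 1 + M (i+1)` is a
decreasing sequence of subgroups of `Lˣ`; for a finite group `G` acting on `L` by ring automorphisms
preserving the filtration, with `σ₀ : G`, the two "additive" exactness properties
* `hA` : `σ₀ • a = a`, `a ∈ M k`  ⟹  `a = ∑ τ, τ • w` with `w ∈ M k`,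
* `hB` : `∑ τ, τ • a ∈ M j`, `a ∈ M k`, `k ≤ j`  ⟹  `σ₀ • w - w ≡ a mod M j` with `w ∈ M k`
imply the multiplicative ones on every `V i₀` (`exactA`, `exactB`): the Tate cohomology of the
cyclic group on `V i₀` vanishes.  Mathlib only + `Approx.lean`.
-/
import Mathlib
import Fermat.Agent.S55.LocH95.Approx

set_option autoImplicit false

open Finset

namespace Fermat.Agent.S55.LocH95

/-- A multiplicative, complete, separated filtration of a commutative ring by additive subgroups. -/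
structure RingFilt (L : Type*) [CommRing L] where
  M : ℕ → AddSubgroup L
  anti : ∀ i, M (i + 1) ≤ M i
  mul_mem : ∀ i j x y, x ∈ M i → y ∈ M j → x * y ∈ M (i + j)
  sep : ∀ x, (∀ n, x ∈ M n) → x = 0
  compl : ∀ i (d : ℕ → L), (∀ n, d n ∈ M (n + i)) →
    ∃ s ∈ M i, ∀ N, s - ∑ n ∈ range N, d n ∈ M (N + i)

namespace RingFilt

variable {L : Type*} [CommRing L] (F : RingFilt L)

theorem mono {i j : ℕ} (h : i ≤ j) : F.M j ≤ F.M i := antitone_nat_of_succ_le F.anti h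

theorem mem_of_le {i j : ℕ} (h : i ≤ j) {x : L} (hx : x ∈ F.M j) : x ∈ F.M i := F.mono h hx

theorem pow_mem {k : ℕ} {a : L} (ha : a ∈ F.M k) (n : ℕ) : a ^ (n + 1) ∈ F.M ((n + 1) * k) := by
  induction n with
  | zero => simpa using ha
  | succ n ih =>
    rw [pow_succ, Nat.succ_mul]
    exact F.mul_mem _ _ _ _ ih ha

/-- `1 + a` is invertible for `a ∈ M (i+1)`, with inverse in `1 + M (i+1)`. -/
theorem exists_inv {i : ℕ} {a : L} (ha : a ∈ F.M (i + 1)) :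
    ∃ a' ∈ F.M (i + 1), (1 + a) * (1 + a') = 1 := by
  have hna : -a ∈ F.M (i + 1) := (F.M (i + 1)).neg_mem ha
  have hd : ∀ n, (-a) ^ (n + 1) ∈ F.M (n + (i + 1)) := fun n =>
    F.mem_of_le (by nlinarith) (F.pow_mem hna n)
  obtain ⟨s, hs, hsN⟩ := F.compl (i + 1) (fun n => (-a) ^ (n + 1)) hd
  refine ⟨s, hs, ?_⟩
  have h0 : (1 + a) * (1 + s) - 1 = 0 := by
    apply F.sep
    intro N
    have h1 : (1 + a) * (1 + ∑ n ∈ range N, (-a) ^ (n + 1)) = 1 - (-a) ^ (N + 1) := by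
      have := mul_neg_geom_sum (-a) (N + 1)
      rw [Finset.sum_range_succ', pow_zero, sub_neg_eq_add, add_comm _ (1 : L)] at this
      exact this
    have h2 : (1 + a) * (1 + s) - 1
        = (s - ∑ n ∈ range N, (-a) ^ (n + 1)) + a * (s - ∑ n ∈ range N, (-a) ^ (n + 1))
          - (-a) ^ (N + 1) := by
      have : (1 + a) * (1 + s) = (1 + a) * (1 + ∑ n ∈ range N, (-a) ^ (n + 1))
          + (1 + a) * (s - ∑ n ∈ range N, (-a) ^ (n + 1)) := by ring
      rw [this, h1]; ring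
    rw [h2]
    refine (F.M N).sub_mem ((F.M N).add_mem ?_ ?_) ?_
    · exact F.mem_of_le (by omega) (hsN N)
    · exact F.mem_of_le (by omega) (F.mul_mem _ _ _ _ ha (hsN N))
    · exact F.mem_of_le (by nlinarith) (F.pow_mem hna N)
  exact sub_eq_zero.mp h0

/-- The subgroup `V i = 1 + M (i+1)` of `Lˣ`. -/
def V (i : ℕ) : Subgroup Lˣ where
  carrier := {u | (u : L) - 1 ∈ F.M (i + 1)}
  one_mem' := by simp
  mul_mem' := by
    intro u w hu hw
    simp only [Set.mem_ofPred_eq] at hu hw ⊢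
    have : ((u * w : Lˣ) : L) - 1 = ((u : L) - 1) * ((w : L) - 1) + ((u : L) - 1) + ((w : L) - 1) := by
      push_cast; ring
    rw [this]
    refine (F.M _).add_mem ((F.M _).add_mem ?_ hu) hw
    exact F.mem_of_le (by omega) (F.mul_mem _ _ _ _ hu hw)
  inv_mem' := by
    intro u hu
    simp only [Set.mem_ofPred_eq] at hu ⊢
    obtain ⟨a', ha', h⟩ := F.exists_inv hu
    have h1 : (u : L) * (1 + a') = 1 := by
      calc (u : L) * (1 + a') = (1 + ((u : L) - 1)) * (1 + a') := by ring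
        _ = 1 := h
    rw [Units.inv_eq_of_mul_eq_one_right h1]
    simpa using ha'

theorem mem_V {i : ℕ} {u : Lˣ} : u ∈ F.V i ↔ (u : L) - 1 ∈ F.M (i + 1) := Iff.rfl

theorem V_mono {i j : ℕ} (h : i ≤ j) : F.V j ≤ F.V i := fun _ hu =>
  F.mem_of_le (by omega) hu

/-- `1 + a` as a unit, for `a ∈ M (i+1)` -/
theorem exists_unit {i : ℕ} {a : L} (ha : a ∈ F.M (i + 1)) : ∃ u ∈ F.V i, (u : L) = 1 + a := by
  obtain ⟨a', -, h⟩ := F.exists_inv ha
  refine ⟨⟨1 + a, 1 + a', h, by rw [mul_comm]; exact h⟩, ?_, rfl⟩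
  rw [mem_V]
  simpa using ha

/-- congruence criterion: `x ≡ y mod M (j+1)` implies `x / y ∈ V j`. -/
theorem div_mem_V {i j : ℕ} {x y : Lˣ} (hy : y ∈ F.V i) (h : (x : L) - y ∈ F.M (j + 1)) :
    x / y ∈ F.V j := by
  rw [mem_V]
  have hy' := (F.V i).inv_mem hy
  rw [mem_V] at hy'
  have : ((x / y : Lˣ) : L) - 1 = ((x : L) - y) + ((x : L) - y) * (((y⁻¹ : Lˣ) : L) - 1) := by
    have h1 : (y : L) * ((y⁻¹ : Lˣ) : L) = 1 := by simp
    rw [div_eq_mul_inv, Units.val_mul]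
    linear_combination (1 : L) * h1
  rw [this]
  refine (F.M _).add_mem h ?_
  exact F.mem_of_le (by omega) (F.mul_mem _ _ _ _ h hy')

/-- multiplicative completeness of the filtration `V (i₀ + n)` -/
theorem V_complete (i₀ : ℕ) (y : ℕ → Lˣ) (hy : ∀ n, y n ∈ F.V (i₀ + n)) :
    ∃ z ∈ F.V i₀, ∀ n, z / ∏ i ∈ range n, y i ∈ F.V (i₀ + n) := by
  have hP : ∀ n, ∏ i ∈ range n, y i ∈ F.V i₀ := fun n =>
    (F.V i₀).prod_mem (fun i _ => F.V_mono (by omega) (hy i))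
  have hd : ∀ n, ((∏ i ∈ range (n + 1), y i : Lˣ) : L) - ((∏ i ∈ range n, y i : Lˣ) : L)
      ∈ F.M (n + (i₀ + 1)) := by
    intro n
    have h1 := hP n
    have h2 := hy n
    rw [mem_V] at h1 h2
    have : ((∏ i ∈ range (n + 1), y i : Lˣ) : L) - ((∏ i ∈ range n, y i : Lˣ) : L)
        = ((y n : L) - 1) + (((∏ i ∈ range n, y i : Lˣ) : L) - 1) * ((y n : L) - 1) := by
      rw [Finset.prod_range_succ, Units.val_mul]; ring
    rw [this]
    refine (F.M _).add_mem (F.mem_of_le (by omega) h2) ?_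
    exact F.mem_of_le (by omega) (F.mul_mem _ _ _ _ h1 h2)
  obtain ⟨s, hs, hsN⟩ := F.compl (i₀ + 1) _ hd
  obtain ⟨z, hz, hzs⟩ := F.exists_unit hs
  refine ⟨z, hz, fun n => F.div_mem_V (hP n) ?_⟩
  have h3 := hsN n
  rw [Finset.sum_range_sub (fun k => ((∏ i ∈ range k, y i : Lˣ) : L))] at h3
  simp only [Finset.range_zero, Finset.prod_empty, Units.val_one] at h3
  rw [hzs]
  have : (1 : L) + s - ((∏ i ∈ range n, y i : Lˣ) : L)
      = s - (((∏ i ∈ range n, y i : Lˣ) : L) - 1) := by ring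
  rw [this]
  exact F.mem_of_le (by omega) h3

theorem V_sep {u : Lˣ} (h : ∀ n, u ∈ F.V n) : u = 1 := by
  have : (u : L) - 1 = 0 := F.sep _ (fun n => F.mem_of_le (by omega) (h n))
  exact Units.ext (sub_eq_zero.mp this)

end RingFilt

/-! ### Group actions -/

section Action

variable {L : Type*} [CommRing L] {G : Type*} [Group G] [MulSemiringAction G L]

/-- the action of `τ : G` on units -/
def actU (τ : G) : Lˣ →* Lˣ := Units.map (MulSemiringAction.toRingHom G L τ : L →* L)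

@[simp] theorem coe_actU (τ : G) (u : Lˣ) : ((actU τ u : Lˣ) : L) = τ • (u : L) := rfl

theorem actU_mul (σ τ : G) (u : Lˣ) : actU (σ * τ) u = actU σ (actU τ u) :=
  Units.ext (by simp [mul_smul])

/-- `u ↦ σ u / u` -/
def fσ (σ : G) : Lˣ →* Lˣ := actU σ / MonoidHom.id Lˣ

theorem fσ_apply (σ : G) (u : Lˣ) : fσ σ u = actU σ u / u := rfl

variable (G) in
/-- the norm `u ↦ ∏ τ, τ u` -/
def nrm [Fintype G] : Lˣ →* Lˣ := ∏ τ : G, actU τ

theorem nrm_apply [Fintype G] (u : Lˣ) : nrm G u = ∏ τ : G, actU τ u := by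
  simp [nrm]

theorem actU_nrm [Fintype G] (σ : G) (u : Lˣ) : actU σ (nrm G u) = nrm G u := by
  rw [nrm_apply, map_prod]
  exact Fintype.prod_equiv (Equiv.mulLeft σ) _ _ (fun τ => (actU_mul σ τ u).symm)

theorem nrm_actU [Fintype G] (σ : G) (u : Lˣ) : nrm G (actU σ u) = nrm G u := by
  rw [nrm_apply, nrm_apply]
  exact Fintype.prod_equiv (Equiv.mulRight σ) _ _ (fun τ => (actU_mul τ σ u).symm)

theorem fσ_nrm [Fintype G] (σ : G) (u : Lˣ) : fσ σ (nrm G u) = 1 := by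
  rw [fσ_apply, actU_nrm, div_self']

theorem nrm_fσ [Fintype G] (σ : G) (u : Lˣ) : nrm G (fσ σ u) = 1 := by
  rw [fσ_apply, map_div, nrm_actU, div_self']

namespace RingFilt

variable (F : RingFilt L) (hG : ∀ (τ : G) i x, x ∈ F.M i → τ • x ∈ F.M i)

include hG in
theorem actU_mem_V (τ : G) {i : ℕ} {u : Lˣ} (hu : u ∈ F.V i) : actU τ u ∈ F.V i := by
  rw [mem_V] at hu ⊢
  have : ((actU τ u : Lˣ) : L) - 1 = τ • ((u : L) - 1) := by
    rw [coe_actU, smul_sub, smul_one]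
  rw [this]
  exact hG τ _ _ hu

include hG in
theorem fσ_mem_V (σ : G) {i : ℕ} {u : Lˣ} (hu : u ∈ F.V i) : fσ σ u ∈ F.V i :=
  (F.V i).div_mem (F.actU_mem_V hG σ hu) hu

include hG in
theorem nrm_mem_V [Fintype G] {i : ℕ} {u : Lˣ} (hu : u ∈ F.V i) : nrm G u ∈ F.V i := by
  rw [nrm_apply]
  exact (F.V i).prod_mem (fun τ _ => F.actU_mem_V hG τ hu)

include hG in
/-- `σ u / u ≡ 1 + (σ a - a)` modulo `M (2(i+1))`, for `u = 1 + a ∈ V i`. -/
theorem fσ_sub (σ : G) {i : ℕ} {u : Lˣ} (hu : u ∈ F.V i) :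
    ((fσ σ u : Lˣ) : L) - 1 - (σ • ((u : L) - 1) - ((u : L) - 1)) ∈ F.M ((i + 1) + (i + 1)) := by
  have hu' := (F.V i).inv_mem hu
  rw [mem_V] at hu hu'
  have h1 : (u : L) * ((u⁻¹ : Lˣ) : L) = 1 := by simp
  have : ((fσ σ u : Lˣ) : L) - 1 - (σ • ((u : L) - 1) - ((u : L) - 1))
      = (σ • ((u : L) - 1) - ((u : L) - 1)) * (((u⁻¹ : Lˣ) : L) - 1) := by
    rw [fσ_apply, div_eq_mul_inv, Units.val_mul, coe_actU, smul_sub, smul_one]
    linear_combination (1 : L) * h1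
  rw [this]
  exact F.mul_mem _ _ _ _ ((F.M _).sub_mem (hG σ _ _ hu) hu) hu'

/-- `∏ (1 + x t) ≡ 1 + ∑ x t` modulo `M (k+k)` -/
theorem prod_one_add_sub {ι : Type*} (s : Finset ι) (x : ι → L) {k : ℕ} (hx : ∀ t, x t ∈ F.M k) :
    ∏ t ∈ s, (1 + x t) - 1 - ∑ t ∈ s, x t ∈ F.M (k + k) := by
  classical
  induction s using Finset.induction_on with
  | empty => simp
  | insert t s ht ih =>
    rw [Finset.prod_insert ht, Finset.sum_insert ht]
    have hS : ∑ t ∈ s, x t ∈ F.M k := (F.M k).sum_mem (fun t _ => hx t)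
    have : (1 + x t) * ∏ t ∈ s, (1 + x t) - 1 - (x t + ∑ t ∈ s, x t)
        = (∏ t ∈ s, (1 + x t) - 1 - ∑ t ∈ s, x t) + x t * ∑ t ∈ s, x t
          + x t * (∏ t ∈ s, (1 + x t) - 1 - ∑ t ∈ s, x t) := by ring
    rw [this]
    refine (F.M _).add_mem ((F.M _).add_mem ih ?_) ?_
    · exact F.mul_mem _ _ _ _ (hx t) hS
    · exact F.mem_of_le (by omega) (F.mul_mem _ _ _ _ (hx t) ih)

include hG in
/-- `N u ≡ 1 + Tr a` modulo `M (2(i+1))`, for `u = 1 + a ∈ V i`. -/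
theorem nrm_sub [Fintype G] {i : ℕ} {u : Lˣ} (hu : u ∈ F.V i) :
    ((nrm G u : Lˣ) : L) - 1 - ∑ τ : G, τ • ((u : L) - 1) ∈ F.M ((i + 1) + (i + 1)) := by
  rw [mem_V] at hu
  have h := F.prod_one_add_sub (Finset.univ : Finset G) (fun τ => τ • ((u : L) - 1))
    (fun τ => hG τ _ _ hu)
  have h2 : ((nrm G u : Lˣ) : L) = ∏ τ : G, (1 + τ • ((u : L) - 1)) := by
    rw [nrm_apply, Units.coe_prod]
    refine Finset.prod_congr rfl (fun τ _ => ?_)
    rw [coe_actU, smul_sub, smul_one]; ring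
  rw [h2]
  exact h

include hG in
/-- **Vanishing of `Ĥ⁰`**: invariants of `V i₀` are norms from `V i₀`. -/
theorem exactA [Fintype G] (σ₀ : G)
    (hA : ∀ k, ∀ a ∈ F.M k, σ₀ • a = a → ∃ w ∈ F.M k, ∑ τ : G, τ • w = a)
    (i₀ : ℕ) {x : Lˣ} (hx : x ∈ F.V i₀) (hfx : fσ σ₀ x = 1) :
    ∃ y ∈ F.V i₀, nrm G y = x := by
  refine exact_of_graded (fσ σ₀) (nrm G) (fun n => F.V (i₀ + n))
    (fun n x hx => F.nrm_mem_V hG hx) (fun a => fσ_nrm σ₀ a)
    (fun a ha => F.V_sep (fun n => F.V_mono (by omega) (ha n)))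
    (fun y hy => F.V_complete i₀ y hy) ?_ hx hfx
  intro n x hx hfx
  have hx' := hx
  rw [mem_V] at hx'
  have hinv : σ₀ • ((x : L) - 1) = (x : L) - 1 := by
    have h1 : actU σ₀ x = x := by
      rw [fσ_apply, div_eq_one] at hfx; exact hfx
    have h2 : σ₀ • (x : L) = x := by rw [← coe_actU, h1]
    rw [smul_sub, smul_one, h2]
  obtain ⟨w, hw, hwa⟩ := hA _ _ hx' hinv
  obtain ⟨y, hy, hyw⟩ := F.exists_unit hw
  refine ⟨y, hy, F.div_mem_V (F.nrm_mem_V hG hy) ?_⟩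
  have h3 := F.nrm_sub hG hy
  rw [hyw, add_sub_cancel_left, hwa] at h3
  have : (x : L) - ((nrm G y : Lˣ) : L) = -(((nrm G y : Lˣ) : L) - 1 - ((x : L) - 1)) := by ring
  rw [this]
  exact (F.M _).neg_mem (F.mem_of_le (by omega) h3)

include hG in
/-- **Vanishing of `Ĥ⁻¹`**: elements of norm one in `V i₀` are of the form `σ₀ y / y`. -/
theorem exactB [Fintype G] (σ₀ : G)
    (hB : ∀ k j, k ≤ j → ∀ a ∈ F.M k, ∑ τ : G, τ • a ∈ F.M j →
      ∃ w ∈ F.M k, σ₀ • w - w - a ∈ F.M j)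
    (i₀ : ℕ) {x : Lˣ} (hx : x ∈ F.V i₀) (hfx : nrm G x = 1) :
    ∃ y ∈ F.V i₀, fσ σ₀ y = x := by
  refine exact_of_graded (nrm G) (fσ σ₀) (fun n => F.V (i₀ + n))
    (fun n x hx => F.fσ_mem_V hG σ₀ hx) (fun a => nrm_fσ σ₀ a)
    (fun a ha => F.V_sep (fun n => F.V_mono (by omega) (ha n)))
    (fun y hy => F.V_complete i₀ y hy) ?_ hx hfx
  intro n x hx hfx
  have hx' := hx
  rw [mem_V] at hx'
  have h3 := F.nrm_sub hG hx
  rw [hfx, Units.val_one, sub_self, zero_sub] at h3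
  have h4 : ∑ τ : G, τ • ((x : L) - 1) ∈ F.M (i₀ + n + 1 + 1) := by
    have := (F.M _).neg_mem h3
    rw [neg_neg] at this
    exact F.mem_of_le (by omega) this
  obtain ⟨w, hw, hwa⟩ := hB _ _ (by omega) _ hx' h4
  obtain ⟨y, hy, hyw⟩ := F.exists_unit hw
  refine ⟨y, hy, F.div_mem_V (F.fσ_mem_V hG σ₀ hy) ?_⟩
  have h5 := F.fσ_sub hG σ₀ hy
  rw [hyw, add_sub_cancel_left] at h5
  have : (x : L) - ((fσ σ₀ y : Lˣ) : L)
      = -((((fσ σ₀ y : Lˣ) : L) - 1 - (σ₀ • w - w)) + (σ₀ • w - w - ((x : L) - 1))) := by ring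
  rw [this]
  exact (F.M _).neg_mem ((F.M _).add_mem (F.mem_of_le (by omega) h5) hwa)

end RingFilt

end Action

end Fermat.Agent.S55.LocH95
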