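/-
S55 / [LOC-H] (helper95), file 4: THE NORMAL-BASIS LATTICE.

`L/K` finite Galois, `v` a `Gal(L/K)`-invariant valuation on `L`, `c ∈ K` with `0 < v c < 1`,
`K` is `c`-adically complete (elementary form) and every element of `L` is `c`-adically bounded.
Coordinates w.r.t. the normal basis `nb τ = τ θ` give the additive subgroups
`latM N i = {x | all coordinates have valuation ≤ v c ^ (i + N)}` of `L`; for `N` large they form a
`RingFilt L` (file `Filt.lean`), stable under `Gal(L/K)`, commensurable with the `v`-balls, and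
"induced" : properties `hA`, `hB` of `Filt.lean` hold for a generator `σ₀` of a cyclic `Gal(L/K)`.
Mathlib only + `CyclicSum.lean`, `Filt.lean`.
-/
import Mathlib
import Fermat.Agent.S55.LocH95.CyclicSum
import Fermat.Agent.S55.LocH95.Filt

set_option autoImplicit false

open Finset

namespace Fermat.Agent.S55.LocH95

/-- The elementary data of a finite Galois extension `L/K` with a Galois-invariant valuation `v`
on `L`, an element `c ∈ K` with `0 < v c < 1` such that `K` is `c`-adically complete and `L` is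
`c`-adically bounded. -/
structure LocDatum (K : Type*) {L : Type*} [Field K] [Field L] [Algebra K L]
    {Γ₀ : Type*} [LinearOrderedCommGroupWithZero Γ₀] (v : Valuation L Γ₀) where
  v_smul : ∀ (σ : L ≃ₐ[K] L) (x : L), v (σ x) = v x
  c : K
  c_ne : c ≠ 0
  c_lt : v (algebraMap K L c) < 1
  arch : ∀ x : L, ∃ n : ℕ, v (algebraMap K L c ^ n * x) ≤ 1
  complete : ∀ a : ℕ → K, (∀ n, v (algebraMap K L (a n)) ≤ v (algebraMap K L c) ^ n) →
    ∃ s : K, ∀ N, v (algebraMap K L (s - ∑ n ∈ range N, a n)) ≤ v (algebraMap K L c) ^ N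

namespace LocDatum

variable {K : Type*} {L : Type*} [Field K] [Field L] [Algebra K L]
  {Γ₀ : Type*} [LinearOrderedCommGroupWithZero Γ₀] {v : Valuation L Γ₀} (D : LocDatum K v)

/-- the valuation of `K` -/
def w (_D : LocDatum K v) : Valuation K Γ₀ := v.comap (algebraMap K L)

theorem w_apply (a : K) : D.w a = v (algebraMap K L a) := rfl

/-- `p = v c` -/
def p : Γ₀ := D.w D.c

theorem p_def : D.p = v (algebraMap K L D.c) := rfl

theorem p_lt : D.p < 1 := D.c_lt

theorem p_ne : D.p ≠ 0 := by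
  rw [p_def, Valuation.ne_zero_iff]
  exact (map_ne_zero_iff _ (algebraMap K L).injective).2 D.c_ne

theorem p_pos : 0 < D.p := zero_lt_iff.mpr D.p_ne

theorem pow_anti {i j : ℕ} (h : i ≤ j) : D.p ^ j ≤ D.p ^ i :=
  pow_le_pow_right_of_le_one' D.p_lt.le h

theorem pow_pos (n : ℕ) : 0 < D.p ^ n := zero_lt_iff.mpr (pow_ne_zero n D.p_ne)

/-- monotone version of `arch` -/
theorem arch_mono {x : L} {n m : ℕ} (h : v (algebraMap K L D.c ^ n * x) ≤ 1) (hnm : n ≤ m) :
    v (algebraMap K L D.c ^ m * x) ≤ 1 := by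
  rw [map_mul, map_pow] at h ⊢
  exact le_trans (mul_le_mul_left (D.pow_anti hnm) _) h

/-- `arch` for a finite family -/
theorem arch_finset {ι : Type*} (s : Finset ι) (x : ι → L) :
    ∃ n : ℕ, ∀ t ∈ s, v (algebraMap K L D.c ^ n * x t) ≤ 1 := by
  classical
  induction s using Finset.induction_on with
  | empty => exact ⟨0, by simp⟩
  | insert t s _ ih =>
    obtain ⟨n, hn⟩ := ih
    obtain ⟨m, hm⟩ := D.arch (x t)
    refine ⟨max n m, fun t' ht' => ?_⟩
    rcases Finset.mem_insert.1 ht' with rfl | h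
    · exact D.arch_mono hm (le_max_right _ _)
    · exact D.arch_mono (hn t' h) (le_max_left _ _)

/-- `L` is `c`-adically separated. -/
theorem sepL {x : L} (h : ∀ n, v x ≤ D.p ^ n) : x = 0 := by
  by_contra hx
  obtain ⟨n, hn⟩ := D.arch x⁻¹
  rw [map_mul, map_pow, map_inv₀, ← p_def, mul_inv_le_iff₀ (zero_lt_iff.mpr (v.ne_zero_iff.2 hx)),
    one_mul] at hn
  have h1 := le_trans hn (h (n + 1))
  exact absurd h1 (not_le.2 (pow_lt_pow_right_of_lt_one₀ D.p_pos D.p_lt (Nat.lt_succ_self n)))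

theorem sepK {a : K} (h : ∀ n, D.w a ≤ D.p ^ n) : a = 0 := by
  have := D.sepL (x := algebraMap K L a) h
  exact (map_eq_zero_iff _ (algebraMap K L).injective).1 this

/-- completeness of `K` with an offset -/
theorem completeK (m : ℕ) (a : ℕ → K) (ha : ∀ n, D.w (a n) ≤ D.p ^ (n + m)) :
    ∃ s : K, ∀ N, D.w (s - ∑ n ∈ range N, a n) ≤ D.p ^ (N + m) := by
  have hcm : D.w (D.c ^ m) = D.p ^ m := by rw [map_pow]; rfl
  have hcm0 : D.c ^ m ≠ 0 := pow_ne_zero m D.c_ne
  obtain ⟨s, hs⟩ := D.complete (fun n => a n / D.c ^ m) (fun n => by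
    show D.w (a n / D.c ^ m) ≤ D.p ^ n
    rw [map_div₀, hcm, div_le_iff₀ (D.pow_pos m), ← pow_add]
    exact ha n)
  refine ⟨s * D.c ^ m, fun N => ?_⟩
  have h1 : s * D.c ^ m - ∑ n ∈ range N, a n
      = (s - ∑ n ∈ range N, a n / D.c ^ m) * D.c ^ m := by
    rw [sub_mul, Finset.sum_mul]
    congr 1
    exact Finset.sum_congr rfl (fun n _ => by field_simp)
  rw [h1, map_mul, hcm, pow_add]
  exact mul_le_mul_left (hs N) _


/-! ### Normal basis coordinates -/

section Lat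

variable [FiniteDimensional K L] [IsGalois K L]

/-- the normal basis -/
noncomputable def nb (_D : LocDatum K v) : Module.Basis (L ≃ₐ[K] L) K L :=
  IsGalois.normalBasis K L

theorem smul_nb (σ τ : L ≃ₐ[K] L) : σ (D.nb τ) = D.nb (σ * τ) := by
  rw [nb, IsGalois.normalBasis_apply, IsGalois.normalBasis_apply (σ * τ)]; rfl

/-- coordinates w.r.t. the normal basis -/
noncomputable def co (x : L) (τ : L ≃ₐ[K] L) : K := D.nb.coord τ x

theorem co_add (x y : L) (τ : L ≃ₐ[K] L) : D.co (x + y) τ = D.co x τ + D.co y τ := map_add _ _ _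
theorem co_sub (x y : L) (τ : L ≃ₐ[K] L) : D.co (x - y) τ = D.co x τ - D.co y τ := map_sub _ _ _
theorem co_neg (x : L) (τ : L ≃ₐ[K] L) : D.co (-x) τ = -D.co x τ := map_neg _ _
theorem co_zero (τ : L ≃ₐ[K] L) : D.co 0 τ = 0 := map_zero _
theorem co_smul (a : K) (x : L) (τ : L ≃ₐ[K] L) : D.co (a • x) τ = a * D.co x τ := by
  unfold co; rw [map_smul, smul_eq_mul]
theorem co_sum {ι : Type*} (s : Finset ι) (x : ι → L) (τ : L ≃ₐ[K] L) :
    D.co (∑ t ∈ s, x t) τ = ∑ t ∈ s, D.co (x t) τ := map_sum _ _ _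

theorem sum_co (x : L) : ∑ τ, D.co x τ • D.nb τ = x := D.nb.sum_repr x

theorem co_sum_smul (β : (L ≃ₐ[K] L) → K) (ρ : L ≃ₐ[K] L) :
    D.co (∑ τ, β τ • D.nb τ) ρ = β ρ := by
  unfold co
  rw [Module.Basis.coord_apply, Module.Basis.repr_sum_self]

theorem ext_co {x y : L} (h : ∀ τ, D.co x τ = D.co y τ) : x = y :=
  D.nb.ext_elem (fun τ => h τ)

theorem co_galois (σ : L ≃ₐ[K] L) (x : L) (ρ : L ≃ₐ[K] L) :
    D.co (σ x) ρ = D.co x (σ⁻¹ * ρ) := by
  have h1 : σ x = ∑ ρ', (fun ρ' => D.co x (σ⁻¹ * ρ')) ρ' • D.nb ρ' := by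
    conv_lhs => rw [← D.sum_co x, map_sum]
    refine Fintype.sum_equiv (Equiv.mulLeft σ) _ _ (fun τ => ?_)
    simp only [Equiv.coe_mulLeft, inv_mul_cancel_left]
    rw [map_smul, smul_nb]
  rw [h1, co_sum_smul]

theorem co_mul (x y : L) (ρ : L ≃ₐ[K] L) :
    D.co (x * y) ρ = ∑ τ, ∑ τ', D.co x τ * D.co y τ' * D.co (D.nb τ * D.nb τ') ρ := by
  conv_lhs => rw [← D.sum_co x, ← D.sum_co y, Finset.sum_mul_sum]
  rw [co_sum]
  refine Finset.sum_congr rfl (fun τ _ => ?_)
  rw [co_sum]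
  refine Finset.sum_congr rfl (fun τ' _ => ?_)
  rw [smul_mul_smul_comm, co_smul]

/-- `N` is large enough: the structure constants and the basis vectors become integral after
multiplication by `c ^ N`. -/
def GoodN (N : ℕ) : Prop :=
  (∀ τ τ' ρ : L ≃ₐ[K] L, D.p ^ N * D.w (D.co (D.nb τ * D.nb τ') ρ) ≤ 1) ∧
    ∀ τ : L ≃ₐ[K] L, D.p ^ N * v (D.nb τ) ≤ 1

theorem exists_goodN : ∃ N, D.GoodN N := by
  obtain ⟨n1, h1⟩ := D.arch_finset (Finset.univ : Finset ((L ≃ₐ[K] L) × (L ≃ₐ[K] L) × (L ≃ₐ[K] L)))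
    (fun t => algebraMap K L (D.co (D.nb t.1 * D.nb t.2.1) t.2.2))
  obtain ⟨n2, h2⟩ := D.arch_finset (Finset.univ : Finset (L ≃ₐ[K] L)) (fun τ => D.nb τ)
  refine ⟨max n1 n2, fun τ τ' ρ => ?_, fun τ => ?_⟩
  · have := D.arch_mono (h1 (τ, τ', ρ) (Finset.mem_univ _)) (le_max_left n1 n2)
    rwa [map_mul, map_pow] at this
  · have := D.arch_mono (h2 τ (Finset.mem_univ _)) (le_max_right n1 n2)
    rwa [map_mul, map_pow] at this

/-- the lattice `c ^ (i + N) Λ`, `Λ` the span of the normal basis over the valuation ring of `K` -/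
def latM (N i : ℕ) : AddSubgroup L where
  carrier := {x | ∀ τ, D.w (D.co x τ) ≤ D.p ^ (i + N)}
  zero_mem' := by
    intro τ
    rw [co_zero, map_zero]
    exact zero_le
  add_mem' := by
    intro x y hx hy τ
    rw [co_add]
    exact Valuation.map_add_le _ (hx τ) (hy τ)
  neg_mem' := by
    intro x hx τ
    rw [co_neg, Valuation.map_neg]
    exact hx τ

theorem mem_latM {N i : ℕ} {x : L} : x ∈ D.latM N i ↔ ∀ τ, D.w (D.co x τ) ≤ D.p ^ (i + N) :=
  Iff.rfl

/-- the filtration `latM N` is a `RingFilt` -/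
noncomputable def filt (N : ℕ) (hN : D.GoodN N) : RingFilt L where
  M := D.latM N
  anti := by
    intro i x hx τ
    exact le_trans (hx τ) (D.pow_anti (by omega))
  mul_mem := by
    intro i j x y hx hy ρ
    rw [co_mul]
    refine Valuation.map_sum_le _ (fun τ _ => Valuation.map_sum_le _ (fun τ' _ => ?_))
    rw [map_mul, map_mul]
    calc D.w (D.co x τ) * D.w (D.co y τ') * D.w (D.co (D.nb τ * D.nb τ') ρ)
        ≤ D.p ^ (i + N) * D.p ^ (j + N) * D.w (D.co (D.nb τ * D.nb τ') ρ) :=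
          mul_le_mul_left (mul_le_mul' (hx τ) (hy τ')) _
      _ = D.p ^ (i + j + N) * (D.p ^ N * D.w (D.co (D.nb τ * D.nb τ') ρ)) := by
          rw [← mul_assoc, ← pow_add, ← pow_add]
          congr 2
          omega
      _ ≤ D.p ^ (i + j + N) * 1 := mul_le_mul_right (hN.1 τ τ' ρ) _
      _ = D.p ^ (i + j + N) := mul_one _
  sep := by
    intro x hx
    apply D.ext_co
    intro τ
    rw [co_zero]
    apply D.sepK
    intro n
    exact le_trans (hx n τ) (D.pow_anti (by omega))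
  compl := by
    intro i d hd
    have h1 : ∀ τ, ∃ s : K, ∀ N', D.w (s - ∑ n ∈ range N', D.co (d n) τ) ≤ D.p ^ (N' + (i + N)) :=
      fun τ => D.completeK (i + N) (fun n => D.co (d n) τ) (fun n => by
        have := hd n τ
        rwa [add_assoc] at this)
    choose s hs using h1
    refine ⟨∑ τ, s τ • D.nb τ, fun τ => ?_, fun N' τ => ?_⟩
    · rw [co_sum_smul]
      have := hs τ 0
      simpa using this
    · rw [co_sub, co_sum_smul, co_sum, add_assoc]
      exact hs τ N'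

theorem filt_M (N : ℕ) (hN : D.GoodN N) (i : ℕ) : (D.filt N hN).M i = D.latM N i := rfl

/-! ### Galois action, induced-module properties -/

theorem galois_mem_latM (σ : L ≃ₐ[K] L) {N i : ℕ} {x : L} (hx : x ∈ D.latM N i) :
    σ x ∈ D.latM N i := by
  intro ρ
  rw [co_galois]
  exact hx _

open Classical in
theorem co_nb (τ ρ : L ≃ₐ[K] L) : D.co (D.nb τ) ρ = if τ = ρ then 1 else 0 := by
  unfold co
  rw [Module.Basis.coord_apply, Module.Basis.repr_self, Finsupp.single_apply]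

/-- invariants are traces (`Ĥ⁰` of the lattice vanishes) -/
theorem latM_hA (σ₀ : L ≃ₐ[K] L) (hσ : ∀ τ, τ ∈ Subgroup.zpowers σ₀) {N k : ℕ} {a : L}
    (ha : a ∈ D.latM N k) (hinv : σ₀ a = a) :
    ∃ w ∈ D.latM N k, ∑ τ : L ≃ₐ[K] L, τ w = a := by
  have hco : ∀ τ, D.co a (σ₀⁻¹ * τ) = D.co a τ := fun τ => by rw [← co_galois, hinv]
  have hconst := const_of_shift σ₀ hσ (D.co a) hco
  refine ⟨D.co a 1 • D.nb 1, ?_, ?_⟩
  · intro τ
    rw [co_smul, co_nb]
    split_ifs
    · rw [mul_one]; exact ha 1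
    · rw [mul_zero, map_zero]; exact zero_le
  · conv_rhs => rw [← D.sum_co a]
    refine Finset.sum_congr rfl (fun τ _ => ?_)
    rw [map_smul, smul_nb, mul_one, hconst τ]

/-- the ball of radius `p ^ m` in `K` -/
def ballK (m : ℕ) : AddSubgroup K where
  carrier := {α | D.w α ≤ D.p ^ m}
  zero_mem' := by
    show D.w 0 ≤ _
    rw [map_zero]; exact zero_le
  add_mem' := fun hx hy => Valuation.map_add_le _ hx hy
  neg_mem' := fun {x} hx => by
    show D.w (-x) ≤ _
    rw [Valuation.map_neg]; exact hx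

theorem co_trace (a : L) (ρ : L ≃ₐ[K] L) :
    D.co (∑ τ : L ≃ₐ[K] L, τ a) ρ = ∑ τ, D.co a τ := by
  rw [co_sum]
  simp_rw [co_galois]
  exact Fintype.sum_equiv ((Equiv.inv _).trans (Equiv.mulRight ρ)) _ _ (fun τ => rfl)

/-- elements of trace zero are of the form `σ₀ w - w` (`Ĥ⁻¹` of the lattice vanishes),
in the approximate form needed by `RingFilt.exactB` -/
theorem latM_hB (σ₀ : L ≃ₐ[K] L) (hσ : ∀ τ, τ ∈ Subgroup.zpowers σ₀) {N k j : ℕ} (hkj : k ≤ j)
    {a : L} (ha : a ∈ D.latM N k) (hT : ∑ τ : L ≃ₐ[K] L, τ a ∈ D.latM N j) :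
    ∃ w ∈ D.latM N k, σ₀ w - w - a ∈ D.latM N j := by
  classical
  set S : K := ∑ τ, D.co a τ with hS
  have hSj : D.w S ≤ D.p ^ (j + N) := by
    have := hT 1
    rwa [co_trace] at this
  have hSk : D.w S ≤ D.p ^ (k + N) := le_trans hSj (D.pow_anti (by omega))
  let a' : (L ≃ₐ[K] L) → D.ballK (k + N) := fun τ =>
    ⟨D.co a τ - (if τ = 1 then S else 0), by
      refine (D.ballK (k + N)).sub_mem (ha τ) ?_
      split_ifs
      · exact hSk
      · exact (D.ballK (k + N)).zero_mem⟩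
  have hsum : ∑ τ, a' τ = 0 := by
    apply Subtype.ext
    rw [AddSubgroup.val_finsetSum]
    show ∑ τ, (D.co a τ - (if τ = 1 then S else 0)) = 0
    rw [Finset.sum_sub_distrib, Finset.sum_ite_eq' Finset.univ (1 : L ≃ₐ[K] L) (fun _ => S)]
    simp [hS]
  obtain ⟨β, hβ⟩ := exists_shift_sub σ₀ hσ a' hsum
  refine ⟨∑ τ, ((β τ : K)) • D.nb τ, fun ρ => ?_, fun ρ => ?_⟩
  · rw [co_sum_smul]
    exact (β ρ).2
  · rw [co_sub, co_sub, co_galois, co_sum_smul, co_sum_smul]
    have h1 := congrArg (fun z : D.ballK (k + N) => (z : K)) (hβ ρ)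
    simp only [AddSubgroup.coe_sub] at h1
    rw [h1]
    show D.w (D.co a ρ - (if ρ = 1 then S else 0) - D.co a ρ) ≤ _
    rw [sub_sub_cancel_left, Valuation.map_neg]
    split_ifs
    · exact hSj
    · rw [map_zero]; exact zero_le

/-! ### Commensurability with the `v`-balls -/

theorem latM_le_ball {N : ℕ} (hN : D.GoodN N) {i : ℕ} {x : L} (hx : x ∈ D.latM N i) :
    v x ≤ D.p ^ i := by
  rw [← D.sum_co x]
  refine Valuation.map_sum_le _ (fun τ _ => ?_)
  rw [Algebra.smul_def, map_mul]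
  calc v (algebraMap K L (D.co x τ)) * v (D.nb τ)
      ≤ D.p ^ (i + N) * v (D.nb τ) := mul_le_mul_left (hx τ) _
    _ = D.p ^ i * (D.p ^ N * v (D.nb τ)) := by rw [pow_add, mul_assoc]
    _ ≤ D.p ^ i * 1 := mul_le_mul_right (hN.2 τ) _
    _ = D.p ^ i := mul_one _

theorem w_trace_le (y : L) : D.w (Algebra.trace K L y) ≤ v y := by
  rw [w_apply, trace_eq_sum_automorphisms]
  exact Valuation.map_sum_le _ (fun σ _ => (D.v_smul σ y).le)

theorem exists_ball_le_latM (N : ℕ) :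
    ∃ j₀ : ℕ, ∀ (i : ℕ) (x : L), v x ≤ D.p ^ (i + j₀) → x ∈ D.latM N i := by
  classical
  have hnd := traceForm_nondegenerate K L
  have hsym := Algebra.traceForm_isSymm K (S := L)
  set db := (Algebra.traceForm K L).dualBasis hnd D.nb with hdb
  have hco : ∀ x τ, D.co x τ = Algebra.trace K L (x * db τ) := by
    intro x τ
    unfold co
    rw [Module.Basis.coord_apply]
    conv_lhs => rw [← LinearMap.BilinForm.dualBasis_dualBasis hnd hsym D.nb]
    rw [LinearMap.BilinForm.dualBasis_repr_apply, Algebra.traceForm_apply]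
  obtain ⟨j₁, hj₁⟩ := D.arch_finset (Finset.univ : Finset (L ≃ₐ[K] L)) (fun τ => db τ)
  refine ⟨j₁ + N, fun i x hx τ => ?_⟩
  rw [hco]
  refine le_trans (D.w_trace_le _) ?_
  have h1 := hj₁ τ (Finset.mem_univ _)
  rw [map_mul, map_pow, ← p_def] at h1
  rw [map_mul]
  calc v x * v (db τ) ≤ D.p ^ (i + (j₁ + N)) * v (db τ) := mul_le_mul_left hx _
    _ = D.p ^ (i + N) * (D.p ^ j₁ * v (db τ)) := by
        rw [← mul_assoc, ← pow_add]; congr 2; omega
    _ ≤ D.p ^ (i + N) * 1 := mul_le_mul_right h1 _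
    _ = D.p ^ (i + N) := mul_one _

end Lat

end LocDatum

end Fermat.Agent.S55.LocH95
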