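/-
S55 / [LOC-H] (helper95), file 5: AN OPEN SUBGROUP OF THE UNITS WITH TRIVIAL TATE COHOMOLOGY.

`L/K` finite cyclic (generator `σ₀`), `D : LocDatum K v` (file `Lattice.lean`).  There is a subgroup
`V ≤ Lˣ`, stable under `Gal(L/K)`, open (`⊇ {u | v (u - 1) ≤ v c ^ m}`), contained in the units
(`v (u - 1) ≤ v c < 1`), on which
  `σ₀ x = x  ⟹  x = N y` (`y ∈ V`)   and   `N x = 1  ⟹  x = σ₀ y / y` (`y ∈ V`).
(Serre, Local Fields, V §1 / XII §3; Cassels–Fröhlich VI §1.4.)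
-/
import Mathlib
import Fermat.Agent.S55.LocH95.Lattice

set_option autoImplicit false

open Finset

namespace Fermat.Agent.S55.LocH95

namespace LocDatum

variable {K : Type*} {L : Type*} [Field K] [Field L] [Algebra K L]
  {Γ₀ : Type*} [LinearOrderedCommGroupWithZero Γ₀] {v : Valuation L Γ₀} (D : LocDatum K v)
  [FiniteDimensional K L] [IsGalois K L]

/-- **Open subgroup with trivial cohomology.** -/
theorem exists_subgroup_exact (σ₀ : L ≃ₐ[K] L) (hσ : ∀ τ, τ ∈ Subgroup.zpowers σ₀) :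
    ∃ V : Subgroup Lˣ,
      (∀ (τ : L ≃ₐ[K] L) (u : Lˣ), u ∈ V → actU τ u ∈ V) ∧
      (∃ m : ℕ, ∀ u : Lˣ, v ((u : L) - 1) ≤ D.p ^ m → u ∈ V) ∧
      (∀ u ∈ V, v ((u : L) - 1) ≤ D.p) ∧
      (∀ x ∈ V, fσ σ₀ x = 1 → ∃ y ∈ V, nrm (L ≃ₐ[K] L) y = x) ∧
      (∀ x ∈ V, nrm (L ≃ₐ[K] L) x = 1 → ∃ y ∈ V, fσ σ₀ y = x) := by
  obtain ⟨N, hN⟩ := D.exists_goodN
  have hG : ∀ (τ : L ≃ₐ[K] L) i x, x ∈ (D.filt N hN).M i → τ • x ∈ (D.filt N hN).M i :=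
    fun τ i x hx => D.galois_mem_latM τ hx
  refine ⟨(D.filt N hN).V 0, fun τ u hu => (D.filt N hN).actU_mem_V hG τ hu, ?_, ?_, ?_, ?_⟩
  · obtain ⟨j₀, hj₀⟩ := D.exists_ball_le_latM N
    exact ⟨1 + j₀, fun u hu => hj₀ 1 _ hu⟩
  · intro u hu
    have := D.latM_le_ball hN (i := 1) hu
    rwa [pow_one] at this
  · intro x hx hfx
    exact (D.filt N hN).exactA hG σ₀
      (fun k a ha hinv => D.latM_hA σ₀ hσ ha hinv) 0 hx hfx
  · intro x hx hfx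
    exact (D.filt N hN).exactB hG σ₀
      (fun k j hkj a ha hT => D.latM_hB σ₀ hσ hkj ha hT) 0 hx hfx

end LocDatum

end Fermat.Agent.S55.LocH95
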