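/-
S55 / [LOC-H] (helper95), file 6: HERBRAND QUOTIENTS OF LOCAL UNITS AND OF `Lˣ`.

`L/K` finite cyclic with generator `σ₀`, `D : LocFieldDatum K v` (complete discretely valued with
finite residue rings, elementary form).  For the pair `(σ₀ - 1, N)` on `Lˣ` (helper54's `Pair`):
* the pair restricted to the units `{v = 1}` is defined with Herbrand quotient `1`;
* the pair on `Lˣ` is defined with Herbrand quotient `[L:K]`;
* (Hilbert 90) `H1 = 0`, hence `|H0| = |Kˣ / N Lˣ| = [L:K]`.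
-/
import Mathlib
import Fermat.Agent.S55.Herbrand54
import Fermat.Agent.S55.LocH95.Units

set_option autoImplicit false

open Finset

namespace Fermat.Agent.S55.LocH95

open Fermat.Agent.S55.Herbrand54

/-! ### Generic lemmas on pairs -/

section Generic

variable {B : Type*} [AddCommGroup B]

theorem subsingleton_H0_of_exact (Q : Pair B) (h : ∀ x, Q.f x = 0 → ∃ y, Q.g y = x) :
    Subsingleton Q.H0 := by
  refine ⟨fun a b => ?_⟩
  obtain ⟨x, hx, rfl⟩ := Q.cls_surj a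
  obtain ⟨y, hy, rfl⟩ := Q.cls_surj b
  rw [(Q.cls_eq_zero_iff x hx).2 (h x hx), (Q.cls_eq_zero_iff y hy).2 (h y hy)]

theorem card_H0_of_exact (Q : Pair B) (h : ∀ x, Q.f x = 0 → ∃ y, Q.g y = x) :
    Nat.card Q.H0 = 1 := by
  have := subsingleton_H0_of_exact Q h
  exact Nat.card_of_subsingleton (0 : Q.H0)

theorem isDefined_of_exact (Q : Pair B) (h0 : ∀ x, Q.f x = 0 → ∃ y, Q.g y = x)
    (h1 : ∀ x, Q.g x = 0 → ∃ y, Q.f y = x) : Q.IsDefined ∧ Q.q = 1 := by
  have s0 := subsingleton_H0_of_exact Q h0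
  have s1 := subsingleton_H0_of_exact Q.swap h1
  refine ⟨⟨inferInstance, inferInstance⟩, ?_⟩
  unfold Pair.q
  rw [card_H0_of_exact Q h0]
  have : Nat.card Q.H1 = 1 := card_H0_of_exact Q.swap h1
  rw [this]
  simp

end Generic

/-! ### The pair `(0, n)` on `ℤ` -/

section IntPair

/-- the pair `(0, n)` on `ℤ` -/
def intPair (n : ℕ) : Pair ℤ where
  f := 0
  g := AddMonoidHom.mulLeft (n : ℤ)
  fg := by ext; simp
  gf := by ext; simp

theorem intPair_g_apply (n : ℕ) (x : ℤ) : (intPair n).g x = n * x := rfl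

theorem intPair_f_apply (n : ℕ) (x : ℤ) : (intPair n).f x = 0 := rfl

theorem card_intPair_H1 {n : ℕ} (hn : n ≠ 0) : Nat.card (intPair n).H1 = 1 := by
  refine card_H0_of_exact (intPair n).swap (fun x hx => ⟨0, ?_⟩)
  have h1 : (n : ℤ) * x = 0 := hx
  have h2 : x = 0 := by
    rcases mul_eq_zero.1 h1 with h | h
    · exact absurd (by exact_mod_cast h) hn
    · exact h
  rw [h2]
  rfl

theorem card_intPair_H0 {n : ℕ} (hn : n ≠ 0) : Nat.card (intPair n).H0 = n := by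
  have : NeZero n := ⟨hn⟩
  let φ : (intPair n).f.ker →+ ZMod n := (Int.castAddHom (ZMod n)).comp (AddSubgroup.subtype _)
  have hφ : Function.Surjective φ := by
    intro z
    obtain ⟨k, rfl⟩ := ZMod.intCast_surjective z
    exact ⟨⟨k, rfl⟩, rfl⟩
  have hker : (intPair n).B0 = φ.ker := by
    ext x
    rw [Pair.mem_B0, AddMonoidHom.mem_ker]
    show (∃ y, (n : ℤ) * y = x) ↔ ((x : ℤ) : ZMod n) = 0
    rw [ZMod.intCast_zmod_eq_zero_iff_dvd]
    constructor
    · rintro ⟨y, hy⟩; exact ⟨y, hy.symm⟩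
    · rintro ⟨y, hy⟩; exact ⟨y, hy.symm⟩
  have e1 : (intPair n).H0 ≃+ ((intPair n).f.ker ⧸ φ.ker) :=
    QuotientAddGroup.quotientAddEquivOfEq hker
  have e2 := QuotientAddGroup.quotientKerEquivOfSurjective φ hφ
  rw [Nat.card_congr (e1.trans e2).toEquiv, Nat.card_zmod]

theorem intPair_isDefined {n : ℕ} (hn : n ≠ 0) : (intPair n).IsDefined ∧ (intPair n).q = n := by
  have h0 := card_intPair_H0 hn
  have h1 := card_intPair_H1 hn
  refine ⟨⟨Nat.finite_of_card_ne_zero (by rw [h0]; exact hn),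
    Nat.finite_of_card_ne_zero (by rw [h1]; exact one_ne_zero)⟩, ?_⟩
  unfold Pair.q
  rw [h0, h1]
  simp

end IntPair


/-! ### The local data -/

/-- `LocDatum` + finiteness of the residue rings `O_L / c^m` + a uniformizer (all elementary). -/
structure LocFieldDatum (K : Type*) {L : Type*} [Field K] [Field L] [Algebra K L]
    {Γ₀ : Type*} [LinearOrderedCommGroupWithZero Γ₀] (v : Valuation L Γ₀)
    extends LocDatum K v where
  fin : ∀ m : ℕ, ∃ T : Finset L, ∀ x : L, v x ≤ 1 →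
    ∃ t ∈ T, v (x - t) ≤ v (algebraMap K L c) ^ m
  π : L
  π_lt : v π < 1
  π_ne : π ≠ 0
  hval : ∀ x : L, x ≠ 0 → ∃ k : ℤ, v x = v π ^ k

section Local

variable {K : Type*} {L : Type*} [Field K] [Field L] [Algebra K L]
  {Γ₀ : Type*} [LinearOrderedCommGroupWithZero Γ₀] {v : Valuation L Γ₀}
  [FiniteDimensional K L] [IsGalois K L]

/-- the pair `(σ₀ - 1, N)` on `Lˣ`, written additively -/
noncomputable def unitsPair (σ₀ : L ≃ₐ[K] L) : Pair (Additive Lˣ) where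
  f := MonoidHom.toAdditive (fσ σ₀)
  g := MonoidHom.toAdditive (nrm (L ≃ₐ[K] L))
  fg := AddMonoidHom.ext fun x => congrArg Additive.ofMul (fσ_nrm σ₀ (Additive.toMul x))
  gf := AddMonoidHom.ext fun x => congrArg Additive.ofMul (nrm_fσ σ₀ (Additive.toMul x))

theorem unitsPair_f (σ₀ : L ≃ₐ[K] L) (x : Additive Lˣ) :
    (unitsPair σ₀).f x = Additive.ofMul (fσ σ₀ (Additive.toMul x)) := rfl

theorem unitsPair_g (σ₀ : L ≃ₐ[K] L) (x : Additive Lˣ) :
    (unitsPair σ₀).g x = Additive.ofMul (nrm (L ≃ₐ[K] L) (Additive.toMul x)) := rfl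

/-- the units `{v = 1}` of `Lˣ`, additively -/
def unitsSub (v : Valuation L Γ₀) : AddSubgroup (Additive Lˣ) where
  carrier := {x | v ((Additive.toMul x : Lˣ) : L) = 1}
  zero_mem' := by
    show v (((Additive.toMul (0 : Additive Lˣ)) : Lˣ) : L) = 1
    simp
  add_mem' := by
    intro x y hx hy
    show v (((Additive.toMul (x + y)) : Lˣ) : L) = 1
    rw [toMul_add, Units.val_mul, map_mul, hx, hy, one_mul]
  neg_mem' := by
    intro x hx
    show v (((Additive.toMul (-x)) : Lˣ) : L) = 1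
    rw [toMul_neg, Units.val_inv_eq_inv_val, map_inv₀, hx, inv_one]

theorem mem_unitsSub {x : Additive Lˣ} : x ∈ unitsSub v ↔ v ((Additive.toMul x : Lˣ) : L) = 1 := Iff.rfl

namespace LocDatum

theorem v_actU (D : LocDatum K v) (τ : L ≃ₐ[K] L) (u : Lˣ) : v ((actU τ u : Lˣ) : L) = v (u : L) := by
  rw [coe_actU, AlgEquiv.smul_def, D.v_smul]

theorem v_fσ (D : LocDatum K v) (σ : L ≃ₐ[K] L) (u : Lˣ) : v ((fσ σ u : Lˣ) : L) = 1 := by
  rw [fσ_apply, Units.val_div_eq_div_val, map_div₀, D.v_actU]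
  exact div_self ((Valuation.ne_zero_iff v).2 u.ne_zero)

theorem v_nrm (D : LocDatum K v) (u : Lˣ) :
    v ((nrm (L ≃ₐ[K] L) u : Lˣ) : L) = v (u : L) ^ Fintype.card (L ≃ₐ[K] L) := by
  rw [nrm_apply, Units.coe_prod, map_prod, Finset.prod_congr rfl (fun τ _ => D.v_actU τ u),
    Finset.prod_const, Finset.card_univ]

theorem unitsSub_f_mem (D : LocDatum K v) (σ₀ : L ≃ₐ[K] L) :
    ∀ x ∈ unitsSub v, (unitsPair σ₀).f x ∈ unitsSub v := fun x _ => D.v_fσ σ₀ (Additive.toMul x)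

theorem unitsSub_g_mem (D : LocDatum K v) (σ₀ : L ≃ₐ[K] L) :
    ∀ x ∈ unitsSub v, (unitsPair σ₀).g x ∈ unitsSub v := fun x hx => by
  show v _ = 1
  rw [unitsPair_g, toMul_ofMul, D.v_nrm, mem_unitsSub.1 hx, one_pow]

/-- the pair `(σ₀ - 1, N)` on the units `{v = 1}` -/
noncomputable def unitsPairU (D : LocDatum K v) (σ₀ : L ≃ₐ[K] L) : Pair (unitsSub v) :=
  (unitsPair σ₀).restrict (unitsSub v) (D.unitsSub_f_mem σ₀) (D.unitsSub_g_mem σ₀)

end LocDatum

namespace LocFieldDatum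

/-- open subgroups of the units have finite index -/
theorem finite_quot (D : LocFieldDatum K v) (V : Subgroup Lˣ) (m : ℕ)
    (hV : ∀ u : Lˣ, v ((u : L) - 1) ≤ D.p ^ m → u ∈ V) :
    Finite (↥(unitsSub v) ⧸ (Subgroup.toAddSubgroup V).addSubgroupOf (unitsSub v)) := by
  classical
  obtain ⟨T, hT⟩ := D.fin m
  have hch : ∀ x : unitsSub v, ∃ t : T,
      v (((Additive.toMul (x : Additive Lˣ) : Lˣ) : L) - (t : L)) ≤ D.p ^ m := fun x => by
    obtain ⟨t, ht, h⟩ := hT _ (le_of_eq x.2)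
    exact ⟨⟨t, ht⟩, h⟩
  choose t ht using hch
  refine Finite.of_injective
    (fun q : ↥(unitsSub v) ⧸ (Subgroup.toAddSubgroup V).addSubgroupOf (unitsSub v) =>
      t (Quotient.out q)) ?_
  intro q q' hqq
  simp only [] at hqq
  rw [← QuotientAddGroup.out_eq' q, ← QuotientAddGroup.out_eq' q', QuotientAddGroup.eq]
  set a : Lˣ := Additive.toMul ((Quotient.out q : unitsSub v) : Additive Lˣ) with ha
  set b : Lˣ := Additive.toMul ((Quotient.out q' : unitsSub v) : Additive Lˣ) with hb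
  have hva : v (a : L) = 1 := (Quotient.out q).2
  have h1 : v ((b : L) - a) ≤ D.p ^ m := by
    have e : (b : L) - a = ((b : L) - (t (Quotient.out q') : L)) - ((a : L) - (t (Quotient.out q) : L)) := by
      rw [hqq]; ring
    rw [e]
    exact Valuation.map_sub_le _ (ht _) (ht _)
  show a⁻¹ * b ∈ V
  apply hV
  have e2 : ((a⁻¹ * b : Lˣ) : L) - 1 = ((b : L) - a) * ((a⁻¹ : Lˣ) : L) := by
    have : (a : L) * ((a⁻¹ : Lˣ) : L) = 1 := by simp
    rw [Units.val_mul]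
    linear_combination (1 : L) * this
  rw [e2, map_mul, Units.val_inv_eq_inv_val, map_inv₀, hva, inv_one, mul_one]
  exact h1

/-- **The Herbrand quotient of the local units is `1`.** -/
theorem unitsPairU_isDefined (D : LocFieldDatum K v) (σ₀ : L ≃ₐ[K] L)
    (hσ : ∀ τ, τ ∈ Subgroup.zpowers σ₀) :
    (D.toLocDatum.unitsPairU σ₀).IsDefined ∧ (D.toLocDatum.unitsPairU σ₀).q = 1 := by
  obtain ⟨V, hVst, ⟨m, hVm⟩, hVle, hVA, hVB⟩ := D.toLocDatum.exists_subgroup_exact σ₀ hσ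
  set PU := D.toLocDatum.unitsPairU σ₀ with hPU
  set V'' : AddSubgroup (unitsSub v) :=
    (Subgroup.toAddSubgroup V).addSubgroupOf (unitsSub v) with hV''
  have hVU : ∀ u ∈ V, v (u : L) = 1 := fun u hu => by
    have h1 : v ((u : L) - 1) < 1 := lt_of_le_of_lt (hVle u hu) D.toLocDatum.p_lt
    have := Valuation.map_one_add_of_lt v h1
    rwa [add_sub_cancel] at this
  have hfσV : ∀ u ∈ V, fσ σ₀ u ∈ V := fun u hu => V.div_mem (hVst σ₀ u hu) hu
  have hnV : ∀ u ∈ V, nrm (L ≃ₐ[K] L) u ∈ V := fun u hu => by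
    rw [nrm_apply]; exact V.prod_mem (fun τ _ => hVst τ u hu)
  have hfV : ∀ x ∈ V'', PU.f x ∈ V'' := fun x hx => hfσV _ hx
  have hgV : ∀ x ∈ V'', PU.g x ∈ V'' := fun x hx => hnV _ hx
  have key := isDefined_of_exact (PU.restrict V'' hfV hgV) ?_ ?_
  · have : Finite (↥(unitsSub v) ⧸ V'') := D.finite_quot V m hVm
    have : V''.FiniteIndex := AddSubgroup.finiteIndex_of_finite_quotient
    have hdef := (PU.isDefined_restrict_iff V'' hfV hgV).1 key.1
    exact ⟨hdef, by rw [← PU.q_restrict V'' hfV hgV hdef]; exact key.2⟩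
  · rintro ⟨⟨x, hxU⟩, hxV⟩ hfx
    have h1 : fσ σ₀ (Additive.toMul x) = 1 :=
      congrArg (fun z : V'' => ((z : unitsSub v) : Additive Lˣ)) hfx
    obtain ⟨y, hyV, hy⟩ := hVA _ hxV h1
    refine ⟨⟨⟨Additive.ofMul y, hVU y hyV⟩, hyV⟩, ?_⟩
    apply Subtype.ext; apply Subtype.ext
    exact congrArg Additive.ofMul hy
  · rintro ⟨⟨x, hxU⟩, hxV⟩ hfx
    have h1 : nrm (L ≃ₐ[K] L) (Additive.toMul x) = 1 :=
      congrArg (fun z : V'' => ((z : unitsSub v) : Additive Lˣ)) hfx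
    obtain ⟨y, hyV, hy⟩ := hVB _ hxV h1
    refine ⟨⟨⟨Additive.ofMul y, hVU y hyV⟩, hyV⟩, ?_⟩
    apply Subtype.ext; apply Subtype.ext
    exact congrArg Additive.ofMul hy

/-! ### The normalised valuation -/

theorem vπ_pos (D : LocFieldDatum K v) : 0 < v D.π :=
  zero_lt_iff.mpr ((Valuation.ne_zero_iff v).2 D.π_ne)

/-- the normalised valuation, as a function -/
noncomputable def ordFun (D : LocFieldDatum K v) (x : Additive Lˣ) : ℤ :=
  Classical.choose (D.hval ((Additive.toMul x : Lˣ) : L) (Additive.toMul x : Lˣ).ne_zero)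

theorem ordFun_spec (D : LocFieldDatum K v) (x : Additive Lˣ) :
    v ((Additive.toMul x : Lˣ) : L) = v D.π ^ D.ordFun x :=
  Classical.choose_spec (D.hval ((Additive.toMul x : Lˣ) : L) (Additive.toMul x : Lˣ).ne_zero)

theorem ordFun_unique (D : LocFieldDatum K v) (x : Additive Lˣ) (k : ℤ)
    (h : v ((Additive.toMul x : Lˣ) : L) = v D.π ^ k) : D.ordFun x = k := by
  apply zpow_right_injective₀ D.vπ_pos D.π_lt.ne
  show v D.π ^ D.ordFun x = v D.π ^ k
  rw [← D.ordFun_spec x, h]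

/-- the normalised valuation `Lˣ → ℤ` -/
noncomputable def ord (D : LocFieldDatum K v) : Additive Lˣ →+ ℤ :=
  AddMonoidHom.mk' D.ordFun (fun x y => by
    apply D.ordFun_unique
    rw [toMul_add, Units.val_mul, map_mul, D.ordFun_spec x, D.ordFun_spec y,
      zpow_add₀ D.vπ_pos.ne'])

theorem ord_spec (D : LocFieldDatum K v) (x : Additive Lˣ) :
    v ((Additive.toMul x : Lˣ) : L) = v D.π ^ D.ord x := D.ordFun_spec x

theorem ord_unique (D : LocFieldDatum K v) (x : Additive Lˣ) (k : ℤ)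
    (h : v ((Additive.toMul x : Lˣ) : L) = v D.π ^ k) : D.ord x = k := D.ordFun_unique x k h

theorem ord_eq_zero_iff (D : LocFieldDatum K v) (x : Additive Lˣ) :
    D.ord x = 0 ↔ x ∈ unitsSub v := by
  rw [mem_unitsSub]
  constructor
  · intro h
    rw [D.ord_spec x, h, zpow_zero]
  · intro h
    exact D.ord_unique x 0 (by rw [h, zpow_zero])

theorem ord_surjective (D : LocFieldDatum K v) : Function.Surjective D.ord := by
  intro k
  refine ⟨Additive.ofMul (Units.mk0 D.π D.π_ne ^ k), D.ord_unique _ k ?_⟩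
  rw [toMul_ofMul, Units.val_zpow_eq_zpow_val, Units.val_mk0, map_zpow₀]

theorem ord_f (D : LocFieldDatum K v) (σ₀ : L ≃ₐ[K] L) (x : Additive Lˣ) :
    D.ord ((unitsPair σ₀).f x) = 0 :=
  (D.ord_eq_zero_iff _).2 (D.toLocDatum.v_fσ σ₀ (Additive.toMul x))

theorem ord_g (D : LocFieldDatum K v) (σ₀ : L ≃ₐ[K] L) (x : Additive Lˣ) :
    D.ord ((unitsPair σ₀).g x) = (Fintype.card (L ≃ₐ[K] L) : ℤ) * D.ord x := by
  apply D.ord_unique
  rw [unitsPair_g, toMul_ofMul, D.toLocDatum.v_nrm, D.ord_spec x, ← zpow_natCast, ← zpow_mul,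
    mul_comm]

/-- the valuation sequence `0 → U → Lˣ → ℤ → 0` of pairs -/
noncomputable def sesOrd (D : LocFieldDatum K v) (σ₀ : L ≃ₐ[K] L) :
    Pair.SES (D.toLocDatum.unitsPairU σ₀) (unitsPair σ₀)
      (intPair (Fintype.card (L ≃ₐ[K] L))) where
  i := ⟨(unitsSub v).subtype, fun _ => rfl, fun _ => rfl⟩
  p := ⟨D.ord, fun x => D.ord_f σ₀ x, fun x => D.ord_g σ₀ x⟩
  inj := (unitsSub v).subtype_injective
  surj := D.ord_surjective
  exact b := by
    show D.ord b = 0 ↔ _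
    rw [D.ord_eq_zero_iff]
    constructor
    · intro hb
      exact ⟨⟨b, hb⟩, rfl⟩
    · rintro ⟨a, rfl⟩
      exact a.2

/-- **The Herbrand quotient of `Lˣ` is `[L:K]`.** -/
theorem unitsPair_isDefined (D : LocFieldDatum K v) (σ₀ : L ≃ₐ[K] L)
    (hσ : ∀ τ, τ ∈ Subgroup.zpowers σ₀) :
    (unitsPair σ₀).IsDefined ∧ (unitsPair σ₀).q = Module.finrank K L := by
  have hn : Fintype.card (L ≃ₐ[K] L) ≠ 0 := Fintype.card_ne_zero
  have hU := D.unitsPairU_isDefined σ₀ hσ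
  have hZ := intPair_isDefined hn
  refine ⟨(D.sesOrd σ₀).isDefined_mid hU.1 hZ.1, ?_⟩
  rw [(D.sesOrd σ₀).q_mul hU.1 hZ.1, hU.2, hZ.2, one_mul, ← IsGalois.card_aut_eq_finrank K L,
    Nat.card_eq_fintype_card]

end LocFieldDatum

end Local

/-! ### Hilbert 90 and the norm index (universe `Type`, as Mathlib's cyclic Hilbert 90) -/

section Hilbert90

variable {K L : Type} [Field K] [Field L] [Algebra K L] [FiniteDimensional K L] [IsGalois K L]

theorem algebraMap_norm_eq (u : Lˣ) :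
    algebraMap K L (Algebra.norm K (u : L)) = ((nrm (L ≃ₐ[K] L) u : Lˣ) : L) := by
  rw [Algebra.norm_eq_prod_automorphisms, nrm_apply, Units.coe_prod]
  rfl

/-- `H1 = Ĥ⁻¹(Lˣ)` vanishes (Hilbert 90) -/
theorem unitsPair_H1_exact (σ₀ : L ≃ₐ[K] L) (hσ : ∀ τ, τ ∈ Subgroup.zpowers σ₀)
    (x : Additive Lˣ) (hx : (unitsPair σ₀).g x = 0) : ∃ y, (unitsPair σ₀).f y = x := by
  have : IsCyclic (L ≃ₐ[K] L) := ⟨⟨σ₀, fun τ => by
    obtain ⟨k, hk⟩ := Subgroup.mem_zpowers_iff.1 (hσ τ)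
    exact ⟨k, hk⟩⟩⟩
  have h1 : nrm (L ≃ₐ[K] L) (Additive.toMul x) = 1 := hx
  have h2 : Algebra.norm K ((Additive.toMul x : Lˣ) : L) = 1 := by
    apply (algebraMap K L).injective
    rw [algebraMap_norm_eq, h1, map_one, Units.val_one]
  obtain ⟨y, hy⟩ := groupCohomology.exists_div_of_norm_eq_one hσ h2
  refine ⟨Additive.ofMul y⁻¹, ?_⟩
  have h3 : fσ σ₀ y⁻¹ = Additive.toMul x := by
    apply Units.ext
    rw [fσ_apply, Units.val_div_eq_div_val, coe_actU, AlgEquiv.smul_def,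
      Units.val_inv_eq_inv_val, map_inv₀, ← hy, inv_div_inv]
  show Additive.ofMul (fσ σ₀ y⁻¹) = x
  rw [h3]
  rfl

theorem card_H1_unitsPair (σ₀ : L ≃ₐ[K] L) (hσ : ∀ τ, τ ∈ Subgroup.zpowers σ₀) :
    Nat.card (unitsPair σ₀).H1 = 1 :=
  card_H0_of_exact (unitsPair σ₀).swap (unitsPair_H1_exact σ₀ hσ)

variable {Γ₀ : Type*} [LinearOrderedCommGroupWithZero Γ₀] {v : Valuation L Γ₀}

/-- **`|Ĥ⁰(Gal(L/K), Lˣ)| = [L:K]`** for a cyclic extension of local fields. -/
theorem card_H0_unitsPair (D : LocFieldDatum K v) (σ₀ : L ≃ₐ[K] L)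
    (hσ : ∀ τ, τ ∈ Subgroup.zpowers σ₀) :
    Nat.card (unitsPair σ₀).H0 = Module.finrank K L := by
  have h := (D.unitsPair_isDefined σ₀ hσ).2
  unfold Pair.q at h
  rw [card_H1_unitsPair σ₀ hσ, Nat.cast_one, div_one] at h
  exact_mod_cast h

/-- `Kˣ → Lˣ`, additively -/
noncomputable def incl : Additive Kˣ →+ Additive Lˣ :=
  MonoidHom.toAdditive (Units.map (algebraMap K L : K →* L))

theorem f_incl (σ₀ : L ≃ₐ[K] L) (a : Additive Kˣ) :
    (unitsPair σ₀).f (incl a) = 0 := by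
  rw [unitsPair_f]
  have : fσ σ₀ (Additive.toMul (incl (L := L) a)) = 1 := by
    rw [fσ_apply, div_eq_one]
    apply Units.ext
    rw [coe_actU, AlgEquiv.smul_def]
    exact σ₀.commutes _
  rw [this]
  rfl

/-- `Kˣ → Ĥ⁰(Lˣ)` -/
noncomputable def toH0 (σ₀ : L ≃ₐ[K] L) : Additive Kˣ →+ (unitsPair σ₀).H0 :=
  (QuotientAddGroup.mk' (unitsPair σ₀).B0).comp
    (incl.codRestrict (unitsPair σ₀).f.ker (f_incl σ₀))

theorem toH0_apply (σ₀ : L ≃ₐ[K] L) (a : Additive Kˣ) :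
    toH0 σ₀ a = (unitsPair σ₀).cls (incl a) (f_incl σ₀ a) := rfl

theorem toH0_surjective (σ₀ : L ≃ₐ[K] L) (hσ : ∀ τ, τ ∈ Subgroup.zpowers σ₀) :
    Function.Surjective (toH0 σ₀) := by
  intro z
  obtain ⟨x, hx, rfl⟩ := (unitsPair σ₀).cls_surj z
  have h1 : fσ σ₀ (Additive.toMul x) = 1 := hx
  have h2 : σ₀ ((Additive.toMul x : Lˣ) : L) = ((Additive.toMul x : Lˣ) : L) := by
    rw [fσ_apply, div_eq_one] at h1
    have := congrArg (fun z : Lˣ => (z : L)) h1
    simpa [AlgEquiv.smul_def] using this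
  have h3 : ∀ τ : L ≃ₐ[K] L, τ ((Additive.toMul x : Lˣ) : L) = ((Additive.toMul x : Lˣ) : L) := by
    intro τ
    have hle : Subgroup.zpowers σ₀ ≤ MulAction.stabilizer (L ≃ₐ[K] L) ((Additive.toMul x : Lˣ) : L) :=
      Subgroup.zpowers_le.2 (MulAction.mem_stabilizer_iff.2 h2)
    exact MulAction.mem_stabilizer_iff.1 (hle (hσ τ))
  obtain ⟨a, ha⟩ := (IsGalois.mem_range_algebraMap_iff_fixed _).2 h3
  have ha0 : a ≠ 0 := by
    rintro rfl
    rw [map_zero] at ha
    exact (Additive.toMul x : Lˣ).ne_zero ha.symm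
  have h4 : incl (Additive.ofMul (Units.mk0 a ha0)) = x := by
    show Additive.ofMul (Units.map (algebraMap K L : K →* L) (Units.mk0 a ha0)) = x
    have : Units.map (algebraMap K L : K →* L) (Units.mk0 a ha0) = Additive.toMul x :=
      Units.ext ha
    rw [this]
    rfl
  refine ⟨Additive.ofMul (Units.mk0 a ha0), ?_⟩
  rw [toH0_apply]
  subst h4
  rfl

theorem toH0_ker (σ₀ : L ≃ₐ[K] L) :
    (toH0 σ₀).ker = Subgroup.toAddSubgroup (Units.map (Algebra.norm K : L →* K)).range := by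
  ext a
  rw [AddMonoidHom.mem_ker, toH0_apply, Pair.cls_eq_zero_iff]
  show _ ↔ Additive.toMul a ∈ (Units.map (Algebra.norm K : L →* K)).range
  rw [MonoidHom.mem_range]
  constructor
  · rintro ⟨y, hy⟩
    refine ⟨Additive.toMul y, Units.ext ?_⟩
    apply (algebraMap K L).injective
    have h1 : nrm (L ≃ₐ[K] L) (Additive.toMul y)
        = Units.map (algebraMap K L : K →* L) (Additive.toMul a) := hy
    show algebraMap K L (Algebra.norm K ((Additive.toMul y : Lˣ) : L)) = _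
    rw [algebraMap_norm_eq, h1]
    rfl
  · rintro ⟨y, hy⟩
    refine ⟨Additive.ofMul y, ?_⟩
    show Additive.ofMul (nrm (L ≃ₐ[K] L) y) = Additive.ofMul _
    congr 1
    apply Units.ext
    rw [← algebraMap_norm_eq, ← hy]
    rfl

/-- **The norm index of a cyclic extension of local fields**: `[Kˣ : N Lˣ] = [L:K]`. -/
theorem index_norm_range (D : LocFieldDatum K v) (σ₀ : L ≃ₐ[K] L)
    (hσ : ∀ τ, τ ∈ Subgroup.zpowers σ₀) :
    (Units.map (Algebra.norm K : L →* K)).range.index = Module.finrank K L := by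
  rw [← Subgroup.index_toAddSubgroup, ← toH0_ker σ₀, AddSubgroup.index_ker,
    AddMonoidHom.range_eq_top.2 (toH0_surjective σ₀ hσ), AddSubgroup.card_top,
    card_H0_unitsPair D σ₀ hσ]

theorem card_units_quot_norm (D : LocFieldDatum K v) (σ₀ : L ≃ₐ[K] L)
    (hσ : ∀ τ, τ ∈ Subgroup.zpowers σ₀) :
    Nat.card (Kˣ ⧸ (Units.map (Algebra.norm K : L →* K)).range) = Module.finrank K L := by
  rw [← Subgroup.index_eq_card]
  exact index_norm_range D σ₀ hσ

end Hilbert90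

end Fermat.Agent.S55.LocH95
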