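/-
S55 / [LOC-H] (helper95), file 7: THE CONCRETE INSTANCE in helper17's model `LocField17`.

`K ≤ L : LF q` (intermediate fields of `PadicAlgCl q / ℚ_[q]`, finite over `ℚ_[q]`), `L` a
`K`-algebra via `relAlgebra h`.  `vL L : Valuation L ℝ≥0`, `x ↦ ‖x‖₊`, and
`padicDatum h : LocFieldDatum K (vL L)` (`c = q`, `π = unif L`).  Consequences for `L/K` Galois with
cyclic group generated by `σ₀`: `h(U_L) = 1`, `h(Lˣ) = [L:K]`, `[Kˣ : N Lˣ] = [L:K]`.
-/
import Mathlib
import Fermat.Agent.S55.LocField17.Ord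
import Fermat.Agent.S55.LocH95.Herbrand

set_option autoImplicit false
set_option linter.style.haveILetI false

open Finset Filter Topology

noncomputable section

namespace Fermat.Agent.S55.LocH95

open Fermat.Agent.S55.LocField17 Fermat.Agent.S55.Herbrand54

variable {q : ℕ} [Fact q.Prime]

/-- the valuation `x ↦ ‖x‖₊` of a local field `L ⊆ PadicAlgCl q` -/
def vL (L : LF q) : Valuation L NNReal where
  toFun x := ‖(x : PadicAlgCl q)‖₊
  map_zero' := by simp
  map_one' := by simp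
  map_mul' x y := by simp
  map_add_le_max' x y := by
    simpa using IsUltrametricDist.nnnorm_add_le_max (x : PadicAlgCl q) (y : PadicAlgCl q)

theorem vL_apply (L : LF q) (x : L) : vL L x = ‖(x : PadicAlgCl q)‖₊ := rfl

theorem coe_vL (L : LF q) (x : L) : ((vL L x : NNReal) : ℝ) = ‖(x : PadicAlgCl q)‖ := rfl

theorem vL_le_iff (L : LF q) (x : L) (r : NNReal) : vL L x ≤ r ↔ ‖(x : PadicAlgCl q)‖ ≤ r := by
  rw [← NNReal.coe_le_coe, coe_vL]

theorem vL_le_one_iff (L : LF q) (x : L) : vL L x ≤ 1 ↔ ‖(x : PadicAlgCl q)‖ ≤ 1 := by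
  rw [vL_le_iff, NNReal.coe_one]

section Datum

variable {K L : LF q} [FiniteDimensional ℚ_[q] K] [FiniteDimensional ℚ_[q] L]

theorem coe_natCast_LF (L : LF q) (n : ℕ) : (((n : L) : L) : PadicAlgCl q) = (n : PadicAlgCl q) := by
  simp

theorem norm_q_LF : ‖((q : ℕ) : PadicAlgCl q)‖ < 1 := by
  have h := norm_q_lt_one (q := q)
  have : ((q : ℚ_[q]) : PadicAlgCl q) = ((q : ℕ) : PadicAlgCl q) := by
    rw [← map_natCast (algebraMap ℚ_[q] (PadicAlgCl q)) q]
  rwa [this] at h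

theorem norm_q_pos : 0 < ‖((q : ℕ) : PadicAlgCl q)‖ := by
  rw [norm_pos_iff]
  exact Nat.cast_ne_zero.2 (Fact.out : q.Prime).ne_zero

/-- completeness of `K`, in the elementary form -/
theorem complete_LF (K : LF q) [FiniteDimensional ℚ_[q] K] (r : ℝ) (hr0 : 0 ≤ r) (hr1 : r < 1)
    (a : ℕ → K) (ha : ∀ n, ‖(a n : PadicAlgCl q)‖ ≤ r ^ n) :
    ∃ s : K, ∀ N, ‖((s - ∑ n ∈ range N, a n : K) : PadicAlgCl q)‖ ≤ r ^ N := by
  have hsum : Summable a :=
    Summable.of_norm_bounded (summable_geometric_of_lt_one hr0 hr1) (fun n => ha n)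
  refine ⟨∑' n, a n, fun N => ?_⟩
  have ht := hsum.hasSum.tendsto_sum_nat
  have ht2 : Tendsto (fun M => ‖(∑ i ∈ range M, a i) - ∑ n ∈ range N, a n‖) atTop
      (𝓝 ‖(∑' n, a n) - ∑ n ∈ range N, a n‖) :=
    (ht.sub_const _).norm
  refine le_of_tendsto ht2 ?_
  filter_upwards [eventually_ge_atTop N] with M hM
  rw [← Finset.sum_Ico_eq_sub _ hM]
  show ‖((∑ i ∈ Finset.Ico N M, a i : K) : PadicAlgCl q)‖ ≤ r ^ N
  have : ((∑ i ∈ Finset.Ico N M, a i : K) : PadicAlgCl q)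
      = ∑ i ∈ Finset.Ico N M, (a i : PadicAlgCl q) := by
    simp
  rw [this]
  refine IsUltrametricDist.norm_sum_le_of_forall_le_of_nonneg (pow_nonneg hr0 N) (fun i hi => ?_)
  refine le_trans (ha i) ?_
  exact pow_le_pow_of_le_one hr0 hr1.le (Finset.mem_Ico.1 hi).1

/-- finiteness of `O_L / ε`-balls (compactness of the unit ball) -/
theorem fin_LF (L : LF q) [FiniteDimensional ℚ_[q] L] (ε : ℝ) (hε : 0 < ε) :
    ∃ T : Finset L, ∀ x : L, ‖(x : PadicAlgCl q)‖ ≤ 1 →
      ∃ t ∈ T, ‖((x - t : L) : PadicAlgCl q)‖ ≤ ε := by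
  obtain ⟨t, -, htfin, hcov⟩ := (isCompact_closedBall (0 : L) 1).finite_cover_balls hε
  refine ⟨htfin.toFinset, fun x hx => ?_⟩
  have hx' : x ∈ Metric.closedBall (0 : L) 1 := by
    rw [Metric.mem_closedBall, dist_zero_right]; exact hx
  obtain ⟨y, hy, hxy⟩ := Set.mem_iUnion₂.1 (hcov hx')
  refine ⟨y, htfin.mem_toFinset.2 hy, ?_⟩
  rw [Metric.mem_ball, dist_eq_norm] at hxy
  exact hxy.le

section Fields

variable (h : K ≤ L)

theorem padic_hC :
    letI := relAlgebra h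
    vL L (algebraMap K L ((q : ℕ) : K)) = ‖((q : ℕ) : PadicAlgCl q)‖₊ := by
  letI := relAlgebra h
  apply NNReal.coe_injective
  rw [coe_vL, map_natCast, coe_natCast_LF]
  rfl

theorem padic_hle (x : L) (n : ℕ) :
    letI := relAlgebra h
    vL L x ≤ vL L (algebraMap K L ((q : ℕ) : K)) ^ n ↔
      ‖(x : PadicAlgCl q)‖ ≤ ‖((q : ℕ) : PadicAlgCl q)‖ ^ n := by
  letI := relAlgebra h
  rw [padic_hC h, vL_le_iff, NNReal.coe_pow, coe_nnnorm]

theorem coe_algebraMap_rel (x : K) :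
    letI := relAlgebra h
    ((algebraMap K L x : L) : PadicAlgCl q) = (x : PadicAlgCl q) := rfl

theorem padic_hle' (x : K) (n : ℕ) :
    letI := relAlgebra h
    vL L (algebraMap K L x) ≤ vL L (algebraMap K L ((q : ℕ) : K)) ^ n ↔
      ‖(x : PadicAlgCl q)‖ ≤ ‖((q : ℕ) : PadicAlgCl q)‖ ^ n := by
  letI := relAlgebra h
  rw [padic_hle h, coe_algebraMap_rel h]

theorem padic_v_smul :
    letI := relAlgebra h
    ∀ (σ : L ≃ₐ[K] L) (x : L), vL L (σ x) = vL L x := by
  letI := relAlgebra h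
  haveI t3 : IsScalarTower ℚ_[q] K L := IsScalarTower.of_algebraMap_eq (fun _ => rfl)
  intro σ x
  apply NNReal.coe_injective
  rw [coe_vL, coe_vL]
  exact norm_algEquiv_self (σ.restrictScalars ℚ_[q]) x

theorem padic_c_lt :
    letI := relAlgebra h
    vL L (algebraMap K L ((q : ℕ) : K)) < 1 := by
  letI := relAlgebra h
  rw [padic_hC h, ← NNReal.coe_lt_coe, coe_nnnorm, NNReal.coe_one]
  exact norm_q_LF

theorem padic_arch :
    letI := relAlgebra h
    ∀ x : L, ∃ n : ℕ, vL L (algebraMap K L ((q : ℕ) : K) ^ n * x) ≤ 1 := by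
  letI := relAlgebra h
  intro x
  by_cases hx : x = 0
  · exact ⟨0, by simp [hx]⟩
  · have hx0 : 0 < ‖(x : PadicAlgCl q)‖ := norm_pos_iff.2 (by simpa using hx)
    obtain ⟨n, hn⟩ := exists_pow_lt_of_lt_one (inv_pos.2 hx0) (norm_q_LF (q := q))
    refine ⟨n, ?_⟩
    rw [map_mul, map_pow, padic_hC h, vL_apply, ← NNReal.coe_le_coe]
    show ‖((q : ℕ) : PadicAlgCl q)‖ ^ n * ‖(x : PadicAlgCl q)‖ ≤ 1
    have := mul_le_mul_of_nonneg_right hn.le hx0.le
    rwa [inv_mul_cancel₀ hx0.ne'] at this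

theorem padic_complete :
    letI := relAlgebra h
    ∀ a : ℕ → K, (∀ n, vL L (algebraMap K L (a n)) ≤ vL L (algebraMap K L ((q : ℕ) : K)) ^ n) →
      ∃ s : K, ∀ N, vL L (algebraMap K L (s - ∑ n ∈ range N, a n))
        ≤ vL L (algebraMap K L ((q : ℕ) : K)) ^ N := by
  letI := relAlgebra h
  intro a ha
  have ha' : ∀ n, ‖(a n : PadicAlgCl q)‖ ≤ ‖((q : ℕ) : PadicAlgCl q)‖ ^ n :=
    fun n => (padic_hle' h (a n) n).1 (ha n)
  obtain ⟨s, hs⟩ := complete_LF K ‖((q : ℕ) : PadicAlgCl q)‖ (norm_nonneg _) norm_q_LF a ha'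
  exact ⟨s, fun N => (padic_hle' h (s - ∑ n ∈ range N, a n) N).2 (hs N)⟩

theorem padic_fin :
    letI := relAlgebra h
    ∀ m : ℕ, ∃ T : Finset L, ∀ x : L, vL L x ≤ 1 →
      ∃ t ∈ T, vL L (x - t) ≤ vL L (algebraMap K L ((q : ℕ) : K)) ^ m := by
  letI := relAlgebra h
  intro m
  obtain ⟨T, hT⟩ := fin_LF L (‖((q : ℕ) : PadicAlgCl q)‖ ^ m) (pow_pos norm_q_pos m)
  refine ⟨T, fun x hx => ?_⟩
  obtain ⟨t, ht, hxt⟩ := hT x ((vL_le_one_iff L x).1 hx)
  exact ⟨t, ht, (padic_hle h _ m).2 hxt⟩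

theorem padic_π_lt : vL L (unif L) < 1 := by
  rw [← NNReal.coe_lt_coe, coe_vL, NNReal.coe_one]
  exact (isUnif_unif L).2.1

theorem padic_hval : ∀ x : L, x ≠ 0 → ∃ k : ℤ, vL L x = vL L (unif L) ^ k := by
  intro x hx
  obtain ⟨m, hm⟩ := exists_zpow (isUnif_unif L) x hx
  refine ⟨m, ?_⟩
  apply NNReal.coe_injective
  rw [NNReal.coe_zpow, coe_vL, coe_vL]
  exact hm

end Fields

/-- **The local datum of `L/K`.** -/
def padicDatum (h : K ≤ L) :
    letI := relAlgebra h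
    LocFieldDatum K (vL L) :=
  letI := relAlgebra h
  { v_smul := padic_v_smul h
    c := ((q : ℕ) : K)
    c_ne := Nat.cast_ne_zero.2 (Fact.out : q.Prime).ne_zero
    c_lt := padic_c_lt h
    arch := padic_arch h
    complete := padic_complete h
    fin := padic_fin h
    π := unif L
    π_lt := padic_π_lt
    π_ne := (isUnif_unif L).1
    hval := padic_hval }

end Datum

/-! ### The theorems in the concrete model -/

section Main

variable {K L : LF q} [FiniteDimensional ℚ_[q] K] [FiniteDimensional ℚ_[q] L] (h : K ≤ L)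

/-- `[L:K] < ∞` for the relative algebra structure -/
theorem finiteDimensional_rel :
    letI := relAlgebra h
    FiniteDimensional K L := by
  letI := relAlgebra h
  haveI t3 : IsScalarTower ℚ_[q] K L := IsScalarTower.of_algebraMap_eq (fun _ => rfl)
  exact FiniteDimensional.right ℚ_[q] K L

/-- **Herbrand quotient of the units of `L`** (cyclic `L/K` inside `PadicAlgCl q`) is `1`. -/
theorem padic_unitsPairU_isDefined :
    letI := relAlgebra h
    haveI := finiteDimensional_rel h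
    ∀ [IsGalois K L] (σ₀ : L ≃ₐ[K] L), (∀ τ, τ ∈ Subgroup.zpowers σ₀) →
      ((padicDatum h).toLocDatum.unitsPairU σ₀).IsDefined ∧
        ((padicDatum h).toLocDatum.unitsPairU σ₀).q = 1 := by
  letI := relAlgebra h
  haveI := finiteDimensional_rel h
  intro _ σ₀ hσ
  exact (padicDatum h).unitsPairU_isDefined σ₀ hσ

/-- **Herbrand quotient of `Lˣ`** is `[L:K]`. -/
theorem padic_unitsPair_isDefined :
    letI := relAlgebra h
    haveI := finiteDimensional_rel h
    ∀ [IsGalois K L] (σ₀ : L ≃ₐ[K] L), (∀ τ, τ ∈ Subgroup.zpowers σ₀) →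
      (unitsPair σ₀).IsDefined ∧ (unitsPair σ₀).q = Module.finrank K L := by
  letI := relAlgebra h
  haveI := finiteDimensional_rel h
  intro _ σ₀ hσ
  exact (padicDatum h).unitsPair_isDefined σ₀ hσ

/-- **Norm index** `[Kˣ : N_{L/K} Lˣ] = [L:K]` for a cyclic extension `L/K` of local fields. -/
theorem padic_index_norm_range :
    letI := relAlgebra h
    haveI := finiteDimensional_rel h
    ∀ [IsGalois K L] (σ₀ : L ≃ₐ[K] L), (∀ τ, τ ∈ Subgroup.zpowers σ₀) →
      (Units.map (Algebra.norm K : L →* K)).range.index = Module.finrank K L := by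
  letI := relAlgebra h
  haveI := finiteDimensional_rel h
  intro _ σ₀ hσ
  exact index_norm_range (padicDatum h) σ₀ hσ

/-- `|Ĥ⁰(Gal(L/K), Lˣ)| = [L:K]` in helper54's `Pair` language. -/
theorem padic_card_H0 :
    letI := relAlgebra h
    haveI := finiteDimensional_rel h
    ∀ [IsGalois K L] (σ₀ : L ≃ₐ[K] L), (∀ τ, τ ∈ Subgroup.zpowers σ₀) →
      Nat.card (unitsPair σ₀).H0 = Module.finrank K L := by
  letI := relAlgebra h
  haveI := finiteDimensional_rel h
  intro _ σ₀ hσ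
  exact card_H0_unitsPair (padicDatum h) σ₀ hσ

end Main

end Fermat.Agent.S55.LocH95
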